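import Fermat.Agent.Duality.Small.Local
import Fermat.Agent.Duality.Instance.Selmer

/-!
# Locally trivial classes for a small set of primes

`S ∋ p` is arbitrary and `C.S ⊇ S` is big. The classes of `G_{ℚ,S}` are compared with those of the
big set: `dim Ш²_S(M) ≤ dim Ш¹_S(M')` and `dim H¹_S(M)` is bounded below, whence the Euler
characteristic of `G_{ℚ,S}` is at most the expected one.
-/

set_option autoImplicit false

open scoped Pointwise

namespace FermatAgent.Duality

open Module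

noncomputable section

local notation "Qb" => AlgebraicClosure ℚ
local notation "GQ" => AlgebraicClosure ℚ ≃ₐ[ℚ] AlgebraicClosure ℚ

attribute [local instance] FermatAgent.RT.isGalois_algClosureRat

variable {p : ℕ} [Fact p.Prime]

section Linear

variable {k U V W : Type} [Field k] [AddCommGroup U] [Module k U] [AddCommGroup V] [Module k V]
  [AddCommGroup W] [Module k W]

/-- A larger kernel gives a smaller range. -/
lemma finrank_range_le_of_ker_le (f : U →ₗ[k] V) (g : U →ₗ[k] W)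
    [FiniteDimensional k (LinearMap.range f)] (h : LinearMap.ker f ≤ LinearMap.ker g) :
    FiniteDimensional k (LinearMap.range g) ∧
      finrank k (LinearMap.range g) ≤ finrank k (LinearMap.range f) := by
  let φ : LinearMap.range f →ₗ[k] LinearMap.range g := g.quotKerEquivRange.toLinearMap ∘ₗ
    Submodule.factor h ∘ₗ f.quotKerEquivRange.symm.toLinearMap
  have hφ : Function.Surjective φ :=
    g.quotKerEquivRange.surjective.comp
      ((Submodule.factor_surjective h).comp f.quotKerEquivRange.symm.surjective)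
  exact ⟨Module.Finite.of_surjective φ hφ, LinearMap.finrank_le_finrank_of_surjective hφ⟩

/-- The dimension of a preimage. -/
lemma finrank_comap_eq [FiniteDimensional k U] (f : U →ₗ[k] V) (W : Submodule k V) :
    finrank k (W.comap f) =
      finrank k (LinearMap.ker f) + finrank k (LinearMap.range f ⊓ W : Submodule k V) := by
  have h1 := LinearMap.finrank_range_add_finrank_ker (f.domRestrict (W.comap f))
  have h2 : LinearMap.range (f.domRestrict (W.comap f)) = LinearMap.range f ⊓ W := by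
    ext t
    constructor
    · rintro ⟨x, rfl⟩
      exact ⟨⟨x.1, rfl⟩, x.2⟩
    · rintro ⟨⟨x, rfl⟩, hx⟩
      exact ⟨⟨x, hx⟩, rfl⟩
  have h3 : finrank k (LinearMap.ker (f.domRestrict (W.comap f))) =
      finrank k (LinearMap.ker f) := by
    rw [LinearMap.ker_domRestrict]
    refine (Submodule.comapSubtypeEquivOfLe ?_).finrank_eq
    intro x hx
    show f x ∈ W
    rw [LinearMap.mem_ker.mp hx]
    exact zero_mem _
  rw [h2, h3] at h1
  omega

end Linear

section Inertia

variable {A : ValuationSubring Qb} {M : Type} [AddCommGroup M] [Module (ZMod p) M]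
  {L : IntermediateField ℚ Qb} (σ : Representation (ZMod p) (A.decompositionSubgroup ℚ) M)
  (hI : A.inertiaSubgroupIn ℚ ≤ L.fixingSubgroup) (hσ : TrivialOn (decSub L A) σ)

/-- The values on inertia of a class, for a module on which inertia acts trivially. -/
def evalInertia : H1c (decLevels A) σ →ₗ[ZMod p] (decInertia A → M) :=
  (B1 (decLevels A) σ).liftQ
    (LinearMap.funLeft (ZMod p) M ((↑) : decInertia A → A.decompositionSubgroup ℚ) ∘ₗ
      (Z1 (decLevels A) σ).subtype) <| by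
    rintro z ⟨m, hm⟩
    refine LinearMap.mem_ker.mpr (funext fun i => ?_)
    show z.1 i = 0
    rw [show z.1 i = σ i m - m from (congrFun hm i).symm, hσ i (hI i.2), sub_self]

lemma evalInertia_cl1 (z : Z1 (decLevels A) σ) (i : decInertia A) :
    evalInertia σ hI hσ (cl1 (decLevels A) σ z) i = z.1 i := rfl

lemma ker_evalInertia : LinearMap.ker (evalInertia σ hI hσ) = decUnr σ := by
  ext x
  induction x using Submodule.Quotient.induction_on with
  | _ z =>
    rw [LinearMap.mem_ker]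
    refine Iff.trans ?_ (cl1_mem_decUnr_iff σ hI hσ z).symm
    exact ⟨fun h i hi => congrFun h ⟨i, hi⟩, fun h => funext fun i => h i i.2⟩

end Inertia

namespace RatCtx

variable (C : RatCtx p) {M : Type} [AddCommGroup M] [Module (ZMod p) M]
  [FiniteDimensional (ZMod p) M] (ρ : Representation (ZMod p) GQ M)
  (hρ : TrivialOn C.L.fixingSubgroup ρ) (S : Finset Nat.Primes)
  (hLS : C.L.IsUnramifiedOutside S) (hpS : ExtCitation.pPrime p ∈ S) (hSS : S ⊆ C.S)

/-- The places outside `S`. -/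
abbrev New : Type := {i : C.datum.ι // i.1 ∉ S}

/-- Everything at `S`, unramified outside `S`. -/
def freeS : Submodule (ZMod p) (C.datum.Loc1 ρ) :=
  ⨅ i, (C.fullCond ρ S (fun _ => ⊤) i).comap (LinearMap.proj i)

/-- Nothing at `S`, unramified outside `S`. -/
def strictS : Submodule (ZMod p) (C.datum.Loc1 ρ) :=
  ⨅ i, (C.fullCond ρ S (fun _ => ⊥) i).comap (LinearMap.proj i)

omit [FiniteDimensional (ZMod p) M] in
lemma mem_freeS {t : C.datum.Loc1 ρ} :
    t ∈ C.freeS ρ S ↔ ∀ i : C.New S, t i.1 ∈ decUnr (C.resAt ρ i.1.1) := by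
  refine Submodule.mem_iInf _ |>.trans ⟨fun h i => ?_, fun h i => ?_⟩
  · have := h i.1
    rwa [Submodule.mem_comap, C.fullCond_of_notMem ρ S _ i.2] at this
  · by_cases hi : i.1 ∈ S
    · rw [Submodule.mem_comap, C.fullCond_of_mem ρ S _ hi]
      trivial
    · rw [Submodule.mem_comap, C.fullCond_of_notMem ρ S _ hi]
      exact h ⟨i, hi⟩

omit [FiniteDimensional (ZMod p) M] in
lemma mem_strictS {t : C.datum.Loc1 ρ} :
    t ∈ C.strictS ρ S ↔ (∀ i : C.datum.ι, i.1 ∈ S → t i = 0) ∧
      ∀ i : C.New S, t i.1 ∈ decUnr (C.resAt ρ i.1.1) := by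
  refine Submodule.mem_iInf _ |>.trans ⟨fun h => ⟨fun i hi => ?_, fun i => ?_⟩, fun h i => ?_⟩
  · have := h i
    rw [Submodule.mem_comap, C.fullCond_of_mem ρ S _ hi] at this
    exact this
  · have := h i.1
    rwa [Submodule.mem_comap, C.fullCond_of_notMem ρ S _ i.2] at this
  · by_cases hi : i.1 ∈ S
    · rw [Submodule.mem_comap, C.fullCond_of_mem ρ S _ hi]
      exact h.1 i hi
    · rw [Submodule.mem_comap, C.fullCond_of_notMem ρ S _ hi]
      exact h.2 ⟨i, hi⟩

include hLS in
omit [FiniteDimensional (ZMod p) M] in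
lemma inertia_le (i : C.New S) : (C.A i.1.1).inertiaSubgroupIn ℚ ≤ C.L.fixingSubgroup :=
  hLS.2 i.1.1 i.2 (C.A i.1.1) (C.liesOver i.1.1)

include hpS in
lemma ne_p (i : C.New S) : (i.1.1 : ℕ) ≠ p := fun h =>
  i.2 ((show i.1.1 = ExtCitation.pPrime p from Subtype.ext h) ▸ hpS)

set_option maxHeartbeats 800000 in
include hρ hLS hpS in
/-- `strictS` of the dual is the annihilator of `freeS`. -/
lemma perp_freeS (t : C.datum.Loc1 (dualTw C.datum.χ ρ)) :
    (∀ u ∈ C.freeS ρ S, C.datum.pairLoc ρ u t = 0) ↔ t ∈ C.strictS (C.dualRep ρ) S := by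
  classical
  rw [mem_strictS]
  constructor
  · intro h
    have hsingle : ∀ (i : C.datum.ι) (x : H1c (C.datum.locLev i) (ρ.comp (C.datum.D i).subtype)),
        (∀ hi : i.1 ∉ S, x ∈ decUnr (C.resAt ρ i.1)) → C.datum.pairAt ρ i x (t i) = 0 := by
      intro i x hx
      have h1 := h (Pi.single i x) ((C.mem_freeS ρ S).mpr fun j => by
        by_cases hj : j.1 = i
        · subst hj
          rw [Pi.single_eq_same]
          exact hx j.2
        · rw [Pi.single_eq_of_ne hj]
          exact zero_mem _)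
      rwa [Datum.pairLoc_apply, Finset.sum_eq_single i
        (fun j _ hj => by rw [Pi.single_eq_of_ne hj, map_zero, LinearMap.zero_apply]) (by simp),
        Pi.single_eq_same] at h1
    refine ⟨fun i hi => ?_, fun i => ?_⟩
    · exact right_nondeg_of_left (C.datum.χ.comp (C.datum.D i).subtype)
        (ρ.comp (C.datum.D i).subtype) (C.datum.locLev i) (C.datum.inv i)
        (C.leftNondeg_at (C.dualRep ρ) (C.trivialOn_dual ρ hρ) i.1) (t i)
        fun x => hsingle i x fun hi' => absurd hi hi'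
    · exact mem_decUnr_of_perp (C.resAt ρ i.1.1) (C.inertia_le S hLS i) (C.trivialOn_resAt ρ hρ i.1.1)
        i.1.1.2 (C.liesOver i.1.1) (C.ne_p S hpS i) C.hL (C.locInv i.1.1) (C.locInv_ne_zero i.1.1)
        (t i.1) fun x hx => hsingle i.1 x fun _ => hx
  · rintro ⟨h0, hu⟩ u hu'
    rw [C.mem_freeS] at hu'
    rw [Datum.pairLoc_apply]
    refine Finset.sum_eq_zero fun i _ => ?_
    by_cases hi : i.1 ∈ S
    · rw [h0 i hi, map_zero]
    · exact pair1_decUnr_eq_zero (C.resAt ρ i.1) i.1.2 (C.liesOver i.1)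
        (C.inertia_le S hLS ⟨i, hi⟩) C.hL (C.trivialOn_resAt ρ hρ i.1) (C.locInv i.1)
        (hu' ⟨i, hi⟩) (hu ⟨i, hi⟩)

/-- The relative `Ш¹`: classes of the big set trivial at `S` and unramified outside. -/
def relSha : Submodule (ZMod p) (H1c C.datum.L ρ) := (C.strictS ρ S).comap (C.datum.locAll ρ)

omit [FiniteDimensional (ZMod p) M] in
set_option maxHeartbeats 800000 in
include hρ hLS hSS in
lemma map_inflS1_sha : (shaDec1 S ρ C.A).map (inflS1 ρ hSS) = C.relSha ρ S := by
  refine le_antisymm ?_ fun y hy => ?_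
  · rintro _ ⟨x, hx, rfl⟩
    refine (C.mem_strictS ρ S).mpr ⟨fun i hi => ?_, fun i => ?_⟩
    · exact (decRes1_inflS1 ρ hSS (C.A i.1) x).trans ((mem_shaDec1 S ρ C.A).mp hx i.1 hi)
    · rw [show C.datum.locAll ρ (inflS1 ρ hSS x) i.1 = decRes1 S ρ (C.A i.1.1) x from
        decRes1_inflS1 ρ hSS (C.A i.1.1) x]
      exact decRes1_mem_decUnr ρ i.2 (C.liesOver i.1.1) (C.inertia_le S hLS i) hρ x
  · obtain ⟨h0, hu⟩ := (C.mem_strictS ρ S).mp hy
    obtain ⟨x, rfl⟩ := exists_inflS1_eq ρ hSS hLS hρ C.A C.liesOver y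
      fun q hq hqS => hu ⟨⟨q, hq⟩, hqS⟩
    refine ⟨x, (mem_shaDec1 S ρ C.A).mpr fun q hq => ?_, rfl⟩
    exact (decRes1_inflS1 ρ hSS (C.A q) x).symm.trans (h0 ⟨q, hSS hq⟩ hq)

set_option maxHeartbeats 1600000 in
include hρ hLS hpS hSS in
/-- The codimension of the global classes and `freeS`. -/
lemma finrank_sup_freeS :
    finrank (ZMod p) (LinearMap.range (C.datum.locAll ρ) ⊔ C.freeS ρ S : Submodule _ _) +
        finrank (ZMod p) (shaDec1 S (C.dualRep ρ) C.A) =
      finrank (ZMod p) (C.datum.Loc1 ρ) + finrank (ZMod p) (C.datum.sha1 (C.dualRep ρ)) := by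
  have hfin : ∀ i, FiniteDimensional (ZMod p)
      (H1c (C.datum.locLev i) (ρ.comp (C.datum.D i).subtype)) := fun i => C.finite_H1_at ρ hρ i.1
  have hfin' : ∀ i, FiniteDimensional (ZMod p)
      (H1c (C.datum.locLev i) ((dualTw C.datum.χ ρ).comp (C.datum.D i).subtype)) :=
    fun i => C.finite_H1_at (C.dualRep ρ) (C.trivialOn_dual ρ hρ) i.1
  have : FiniteDimensional (ZMod p) (H1c C.datum.L (dualTw C.datum.χ ρ)) :=
    C.finite_H1_global (C.dualRep ρ) (C.trivialOn_dual ρ hρ)
  have hleft := C.datum.pairLoc_left ρ fun i => C.leftNondeg_at ρ hρ i.1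
  have hright := C.datum.pairLoc_right ρ
    fun i => C.leftNondeg_at (C.dualRep ρ) (C.trivialOn_dual ρ hρ) i.1
  have hinj : Function.Injective (C.datum.pairLoc ρ).flip :=
    (injective_iff_map_eq_zero _).mpr fun y hy => hright y fun x => LinearMap.congr_fun hy x
  have hsurj : Function.Surjective (C.datum.pairLoc ρ).flip :=
    (LinearMap.injective_iff_surjective_of_finrank_eq_finrank
      (by rw [Subspace.dual_finrank_eq, finrank_eq_of_nondeg hleft hright])).mp hinj
  let U' := LinearMap.range (C.datum.locAll (dualTw C.datum.χ ρ)) ⊓ C.strictS (C.dualRep ρ) S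
  have hann : (LinearMap.range (C.datum.locAll ρ) ⊔ C.freeS ρ S).dualAnnihilator =
      U'.map (C.datum.pairLoc ρ).flip := by
    refine le_antisymm (fun f hf => ?_) ?_
    · obtain ⟨t, rfl⟩ := hsurj f
      rw [Submodule.mem_dualAnnihilator] at hf
      refine ⟨t, ⟨?_, (C.perp_freeS ρ hρ S hLS hpS t).mp fun u hu =>
        hf u (Submodule.mem_sup_right hu)⟩, rfl⟩
      exact (C.exact_locAll ρ hρ).1 t fun x => hf _ (Submodule.mem_sup_left ⟨x, rfl⟩)
    · rintro _ ⟨t, ⟨⟨y, rfl⟩, ht⟩, rfl⟩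
      rw [Submodule.mem_dualAnnihilator]
      intro u hu
      obtain ⟨_, ⟨x, rfl⟩, w, hw, rfl⟩ := Submodule.mem_sup.mp hu
      rw [map_add, LinearMap.flip_apply, LinearMap.flip_apply,
        C.datum.pairLoc_locAll ρ C.reciprocity x y,
        (C.perp_freeS ρ hρ S hLS hpS _).mpr ht w hw, add_zero]
  have h1 := Subspace.finrank_add_finrank_dualAnnihilator_eq
    (LinearMap.range (C.datum.locAll ρ) ⊔ C.freeS ρ S)
  rw [hann, ← (Submodule.equivMapOfInjective _ hinj U').finrank_eq] at h1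
  have h2 := finrank_comap_eq (C.datum.locAll (dualTw C.datum.χ ρ)) (C.strictS (C.dualRep ρ) S)
  have h3 : finrank (ZMod p) (C.relSha (C.dualRep ρ) S) =
      finrank (ZMod p) (shaDec1 S (C.dualRep ρ) C.A) := by
    rw [← C.map_inflS1_sha (C.dualRep ρ) (C.trivialOn_dual ρ hρ) S hLS hSS]
    exact ((Submodule.equivMapOfInjective _ (inflS1_injective (C.dualRep ρ) hSS) _).finrank_eq).symm
  rw [← h3]
  change finrank (ZMod p) (C.relSha (C.dualRep ρ) S) =
    finrank (ZMod p) (C.datum.sha1 (C.dualRep ρ)) + finrank (ZMod p) U' at h2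
  omega

/-- The values on inertia at the places outside `S`. -/
def newRam : C.datum.Loc1 ρ →ₗ[ZMod p] ∀ i : C.New S, decInertia (C.A i.1.1) → M :=
  LinearMap.pi fun i => evalInertia (C.resAt ρ i.1.1) (C.inertia_le S hLS i)
    (C.trivialOn_resAt ρ hρ i.1.1) ∘ₗ LinearMap.proj i.1

omit [FiniteDimensional (ZMod p) M] in
lemma ker_newRam : LinearMap.ker (C.newRam ρ hρ S hLS) = C.freeS ρ S := by
  ext t
  rw [C.mem_freeS]
  refine ⟨fun h i => ?_, fun h => funext fun i => ?_⟩
  · rw [← ker_evalInertia (C.resAt ρ i.1.1) (C.inertia_le S hLS i) (C.trivialOn_resAt ρ hρ i.1.1)]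
    exact congrFun (LinearMap.mem_ker.mp h) i
  · have := h i
    rw [← ker_evalInertia (C.resAt ρ i.1.1) (C.inertia_le S hLS i)
      (C.trivialOn_resAt ρ hρ i.1.1)] at this
    exact this

include hρ hLS hpS in
/-- The ramified part at a new place is at most the invariants of the dual. -/
lemma finrank_range_evalInertia (i : C.New S) :
    finrank (ZMod p) (LinearMap.range (evalInertia (C.resAt ρ i.1.1) (C.inertia_le S hLS i)
        (C.trivialOn_resAt ρ hρ i.1.1))) ≤
      finrank (ZMod p) (dualTw (C.datum.χ.comp (C.datum.D i.1).subtype)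
          (ρ.comp (C.datum.D i.1).subtype)).invariants := by
  let σ := C.resAt ρ i.1.1
  let χ := decChi p (C.A i.1.1)
  let LV := decLevels (C.A i.1.1)
  have hσ : TrivialOn (decSub C.L (C.A i.1.1)) σ := C.trivialOn_resAt ρ hρ i.1.1
  have hσ' : TrivialOn (decSub C.L (C.A i.1.1)) (dualTw χ σ) :=
    trivialOn_dualTw χ σ (decChi_trivial C.L _ C.hL) hσ
  have : FiniteDimensional (ZMod p) (H1c LV σ) := C.finite_H1_at ρ hρ i.1.1
  have : FiniteDimensional (ZMod p) (H1c LV (dualTw χ σ)) :=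
    C.finite_H1_at (C.dualRep ρ) (C.trivialOn_dual ρ hρ) i.1.1
  have hl : LeftNondeg χ σ LV (C.locInv i.1.1) := C.leftNondeg_at ρ hρ i.1.1
  have hl' : LeftNondeg χ (dualTw χ σ) LV (C.locInv i.1.1) :=
    C.leftNondeg_at (C.dualRep ρ) (C.trivialOn_dual ρ hρ) i.1.1
  have heq := finrank_eq_of_nondeg (T := pair1 χ σ LV (C.locInv i.1.1)) hl
    fun y hy => right_nondeg_of_left χ σ LV (C.locInv i.1.1) hl' y hy
  let ψ : H1c LV (dualTw χ σ) →ₗ[ZMod p] Dual (ZMod p) (decUnr σ) :=
    (decUnr σ).subtype.dualMap ∘ₗ (pair1 χ σ LV (C.locInv i.1.1)).flip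
  have hker : LinearMap.ker ψ ≤ decUnr (dualTw χ σ) := fun y hy =>
    mem_decUnr_of_perp σ (C.inertia_le S hLS i) hσ i.1.1.2 (C.liesOver i.1.1) (C.ne_p S hpS i)
      C.hL (C.locInv i.1.1) (C.locInv_ne_zero i.1.1) y
      fun x hx => LinearMap.congr_fun (LinearMap.mem_ker.mp hy) ⟨x, hx⟩
  have h1 := LinearMap.finrank_range_add_finrank_ker ψ
  have h2 := Submodule.finrank_le (LinearMap.range ψ)
  rw [Subspace.dual_finrank_eq] at h2
  have h3 := (Submodule.finrank_mono hker).trans
    (finrank_decUnr_le (dualTw χ σ) (C.inertia_le S hLS i) hσ' i.1.1.2 (C.liesOver i.1.1) C.hL)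
  have h4 := LinearMap.finrank_range_add_finrank_ker
    (evalInertia σ (C.inertia_le S hLS i) hσ)
  rw [ker_evalInertia] at h4
  replace h4 : finrank (ZMod p) (LinearMap.range (evalInertia σ (C.inertia_le S hLS i) hσ)) +
      finrank (ZMod p) (decUnr σ) = finrank (ZMod p) (H1c LV σ) := h4
  replace h1 : finrank (ZMod p) (LinearMap.range ψ) + finrank (ZMod p) (LinearMap.ker ψ) =
      finrank (ZMod p) (H1c LV (dualTw χ σ)) := h1
  replace heq : finrank (ZMod p) (H1c LV σ) = finrank (ZMod p) (H1c LV (dualTw χ σ)) := heq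
  change finrank (ZMod p) (LinearMap.range (evalInertia σ (C.inertia_le S hLS i) hσ)) ≤
    finrank (ZMod p) (dualTw χ σ).invariants
  omega

include hρ hLS hpS in
lemma finrank_freeS_ge :
    finrank (ZMod p) (C.datum.Loc1 ρ) ≤ finrank (ZMod p) (C.freeS ρ S) +
      ∑ i : C.New S, finrank (ZMod p) (dualTw (C.datum.χ.comp (C.datum.D i.1).subtype)
          (ρ.comp (C.datum.D i.1).subtype)).invariants := by
  classical
  have hfin : ∀ i, FiniteDimensional (ZMod p)
      (H1c (C.datum.locLev i) (ρ.comp (C.datum.D i).subtype)) := fun i => C.finite_H1_at ρ hρ i.1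
  let R := fun i : C.New S => LinearMap.range (evalInertia (C.resAt ρ i.1.1)
    (C.inertia_le S hLS i) (C.trivialOn_resAt ρ hρ i.1.1))
  have hR : ∀ i, Module.Finite (ZMod p) (R i) := fun i => by
    have : FiniteDimensional (ZMod p) (H1c (decLevels (C.A i.1.1)) (C.resAt ρ i.1.1)) := hfin i.1
    exact Module.Finite.range _
  let g : C.datum.Loc1 ρ →ₗ[ZMod p] ∀ i, R i := LinearMap.pi fun i =>
    LinearMap.rangeRestrict (evalInertia (C.resAt ρ i.1.1)
      (C.inertia_le S hLS i) (C.trivialOn_resAt ρ hρ i.1.1)) ∘ₗ LinearMap.proj i.1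
  have hker : LinearMap.ker g ≤ C.freeS ρ S := fun t ht => by
    rw [← C.ker_newRam ρ hρ S hLS]
    exact funext fun i => congrArg Subtype.val (congrFun (LinearMap.mem_ker.mp ht) i)
  have h1 := LinearMap.finrank_range_add_finrank_ker g
  have h2 := Submodule.finrank_le (LinearMap.range g)
  have hfree : ∀ i, Module.Free (ZMod p) (R i) := fun i => Module.Free.of_divisionRing (ZMod p) _
  rw [Module.finrank_pi_fintype (ZMod p) (M := fun i => R i)] at h2
  have h3 := Submodule.finrank_mono hker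
  have h4 : ∑ i, finrank (ZMod p) (R i) ≤ _ := Finset.sum_le_sum (s := Finset.univ) fun i _ =>
    C.finrank_range_evalInertia ρ hρ S hLS hpS i
  omega

/-- `h⁰` of the twisted dual at a prime. -/
def dualInv (q : Nat.Primes) : ℕ :=
  finrank (ZMod p) (dualTw (decChi p (C.A q)) (C.resAt ρ q)).invariants

include hρ hLS hpS hSS in
set_option maxHeartbeats 800000 in
/-- The lower bound for `H¹(G_{ℚ,S}, M)`. -/
theorem finrank_H1S_ge :
    finrank (ZMod p) ρ.invariants + finrank (ZMod p) (LinearMap.ker (ρ complexConjugation + 1)) +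
        ∑ q ∈ S, C.dualInv ρ q + finrank (ZMod p) (shaDec1 S (C.dualRep ρ) C.A) ≤
      finrank (ZMod p) (H1c (sLevels S) ρ) + finrank (ZMod p) (C.dualRep ρ).invariants := by
  classical
  have hfin : ∀ i, FiniteDimensional (ZMod p)
      (H1c (C.datum.locLev i) (ρ.comp (C.datum.D i).subtype)) := fun i => C.finite_H1_at ρ hρ i.1
  have : FiniteDimensional (ZMod p) (H1c C.datum.L ρ) := C.finite_H1_global ρ hρ
  have : FiniteDimensional (ZMod p) (H1c (sLevels S) ρ) :=
    finite_H1c_sLevels ρ (fun m => ⟨C.L, inferInstance, fun s hs => hρ s hs m⟩) S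
  let U := LinearMap.range (C.datum.locAll ρ)
  let infl : H1c (sLevels S) ρ →ₗ[ZMod p] H1c C.datum.L ρ := inflS1 ρ hSS
  let Sel : Submodule (ZMod p) (H1c C.datum.L ρ) := (C.freeS ρ S).comap (C.datum.locAll ρ)
  have hSel : Sel ≤ LinearMap.range infl := fun y hy => by
    obtain ⟨x, hx⟩ := exists_inflS1_eq ρ hSS hLS hρ C.A C.liesOver y
      fun q hq hqS => (C.mem_freeS ρ S).mp hy ⟨⟨q, hq⟩, hqS⟩
    exact ⟨x, hx⟩
  have h1 := (Submodule.finrank_mono hSel).trans (LinearMap.finrank_range_le _)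
  rw [finrank_comap_eq, C.finrank_ker_locAll ρ] at h1
  have h2 := C.finrank_range_locAll ρ hρ
  have h3 := Submodule.finrank_sup_add_finrank_inf_eq U (C.freeS ρ S)
  have h4 := C.finrank_sup_freeS ρ hρ S hLS hpS hSS
  have h5 := C.finrank_freeS_ge ρ hρ S hLS hpS
  have hsplit : (∑ i : C.New S, finrank (ZMod p) (dualTw (C.datum.χ.comp (C.datum.D i.1).subtype)
      (ρ.comp (C.datum.D i.1).subtype)).invariants) + ∑ q ∈ S, C.dualInv ρ q =
      ∑ q : C.datum.ι, finrank (ZMod p) (dualTw (C.datum.χ.comp (C.datum.D q).subtype)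
        (ρ.comp (C.datum.D q).subtype)).invariants := by
    rw [← Finset.sum_subtype (Finset.univ.filter fun i : C.datum.ι => i.1 ∉ S)
      (by simp) fun i : C.datum.ι => finrank (ZMod p)
        (dualTw (C.datum.χ.comp (C.datum.D i).subtype) (ρ.comp (C.datum.D i).subtype)).invariants,
      ← Finset.sum_filter_add_sum_filter_not Finset.univ (fun i : C.datum.ι => i.1 ∉ S)]
    refine congrArg (_ + ·) (Finset.sum_bij (fun q hq => (⟨q, hSS hq⟩ : C.datum.ι))
      (fun q hq => Finset.mem_filter.mpr ⟨Finset.mem_univ _, not_not.mpr hq⟩)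
      (fun a _ b _ h => congrArg Subtype.val h)
      (fun i hi => ⟨i.1, not_not.mp (Finset.mem_filter.mp hi).2, rfl⟩) fun q _ => rfl)
  zify at h1 h3 h4 h5 hsplit ⊢
  linarith

/-- Inflation to the big set, in degree `2`. -/
def inflS2 : H2c (sLevels S) ρ →ₗ[ZMod p] H2c C.datum.L ρ :=
  map2 (φ := LinearMap.id) ρ ρ (isLevHom_inflS hSS) (fun _ _ => rfl)

omit [FiniteDimensional (ZMod p) M] in
lemma loc2_inflS2 (i : C.datum.ι) (x : H2c (sLevels S) ρ) :
    C.datum.loc2 ρ i (C.inflS2 ρ S hSS x) = decRes2 S ρ (C.A i.1) x := by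
  induction x using Submodule.Quotient.induction_on with
  | _ z => rfl

/-- Cochains of the big set whose coboundary is a cocycle of `G_{ℚ,S}`. -/
def killers : Submodule (ZMod p) (GQ → M) := lev₁ (sLevels C.S) ⊓ (Z2 (sLevels S) ρ).comap (dd₁ ρ)

/-- The class of degree two attached to such a cochain. -/
def killClass : C.killers ρ S →ₗ[ZMod p] H2c (sLevels S) ρ :=
  cl2 (sLevels S) ρ ∘ₗ ((dd₁ ρ).domRestrict (C.killers ρ S)).codRestrict _ fun y => y.2.2

omit [FiniteDimensional (ZMod p) M] in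
lemma ker_inflS2_le : LinearMap.ker (C.inflS2 ρ S hSS) ≤ LinearMap.range (C.killClass ρ S) := by
  intro x hx
  induction x using Submodule.Quotient.induction_on with
  | _ c =>
    obtain ⟨y, hy, hdy⟩ := (cl2_eq_zero_iff _ _ _).mp (LinearMap.mem_ker.mp hx)
    have hdy' : dd₁ ρ y = c.1 := hdy
    exact ⟨⟨y, hy, by show dd₁ ρ y ∈ Z2 (sLevels S) ρ; rw [hdy']; exact c.2⟩,
      congrArg (cl2 (sLevels S) ρ) (Subtype.ext hdy')⟩

/-- The tame values of a killing cochain. -/
def tame : C.killers ρ S →ₗ[ZMod p] ∀ i : C.New S, decInertia (C.A i.1.1) → M :=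
  LinearMap.pi fun _ => LinearMap.pi fun σ =>
    (LinearMap.proj ((σ.1 : GQ)) - LinearMap.proj ((1 : GQ), (1 : GQ)) ∘ₗ dd₁ ρ).domRestrict _

omit [FiniteDimensional (ZMod p) M] in
lemma tame_apply (y : C.killers ρ S) (i : C.New S) (σ : decInertia (C.A i.1.1)) :
    C.tame ρ S y i σ = y.1 (σ.1 : GQ) - dd₁ ρ y.1 (1, 1) := rfl

include hρ hLS in
omit [FiniteDimensional (ZMod p) M] in
set_option maxHeartbeats 800000 in
/-- The tame values come from local classes. -/
lemma tame_mem_range (y : C.killers ρ S) :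
    C.tame ρ S y ∈ LinearMap.range (C.newRam ρ hρ S hLS) := by
  classical
  have hex : ∀ i : C.New S, ∃ x : H1c (decLevels (C.A i.1.1)) (C.resAt ρ i.1.1),
      evalInertia (C.resAt ρ i.1.1) (C.inertia_le S hLS i) (C.trivialOn_resAt ρ hρ i.1.1) x =
        C.tame ρ S y i := by
    intro i
    obtain ⟨z, hz, hdz, hzI⟩ := exists_primitive_global ρ hLS hρ ⟨dd₁ ρ y.1, y.2.2⟩ i.2
      (C.liesOver i.1.1)
    obtain ⟨_, ⟨Fy, hFy, rfl⟩, hly⟩ := y.2.1
    have hy' : IsLev₁ (decLevels (C.A i.1.1))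
        fun d : (C.A i.1.1).decompositionSubgroup ℚ => y.1 (d : GQ) :=
      ⟨_, ⟨_, ⟨Fy, hFy.1, rfl⟩, rfl⟩, fun g s hs => hly (g : GQ) (s : GQ) hs⟩
    obtain ⟨U, hU, hlz⟩ := hz
    obtain ⟨V, hV, hlv⟩ := hy'
    obtain ⟨W, hW, hle⟩ := (decLevels (C.A i.1.1)).inf_mem hU hV
    let a : Z1 (decLevels (C.A i.1.1)) (C.resAt ρ i.1.1) :=
      ⟨fun d => y.1 (d : GQ) - z d, ⟨W, hW, fun g s hs =>
          congrArg₂ (· - ·) (hlv g s (hle hs).2) (hlz g s (hle hs).1)⟩, fun g h => by
        have e : C.resAt ρ i.1.1 g (z h) - z (g * h) + z g =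
            dd₁ ρ y.1 ((g : GQ), (h : GQ)) := congrFun hdz (g, h)
        rw [dd₁_apply, ← Subgroup.coe_mul] at e
        change y.1 ((g * h : _) : GQ) - z (g * h) =
          C.resAt ρ i.1.1 g (y.1 (h : GQ) - z h) + (y.1 (g : GQ) - z g)
        rw [map_sub, show C.resAt ρ i.1.1 g (y.1 (h : GQ)) = ρ (g : GQ) (y.1 (h : GQ)) from rfl]
        linear_combination (norm := abel) e⟩
    refine ⟨cl1 (decLevels (C.A i.1.1)) (C.resAt ρ i.1.1) a, funext fun σ => ?_⟩
    refine (evalInertia_cl1 (C.resAt ρ i.1.1) (C.inertia_le S hLS i)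
      (C.trivialOn_resAt ρ hρ i.1.1) a σ).trans ?_
    rw [tame_apply]
    show y.1 (σ.1 : GQ) - z σ.1 = _
    rw [hzI σ.1 σ.2]
  choose x hx using hex
  refine ⟨fun i => if h : i.1 ∈ S then 0 else x ⟨i, h⟩, funext fun i => ?_⟩
  show evalInertia (C.resAt ρ i.1.1) (C.inertia_le S hLS i) (C.trivialOn_resAt ρ hρ i.1.1)
    (dite _ _ _) = _
  exact (congrArg (evalInertia (C.resAt ρ i.1.1) (C.inertia_le S hLS i)
    (C.trivialOn_resAt ρ hρ i.1.1)) (dif_neg i.2)).trans (hx i)

include hρ hLS in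
omit [FiniteDimensional (ZMod p) M] in
set_option maxHeartbeats 800000 in
/-- A cochain with the tame values of a global class has trivial class. -/
lemma killClass_eq_zero (y : C.killers ρ S) (x : H1c C.datum.L ρ)
    (hx : C.tame ρ S y = C.newRam ρ hρ S hLS (C.datum.locAll ρ x)) : C.killClass ρ S y = 0 := by
  induction x using Submodule.Quotient.induction_on with
  | _ a =>
  set c := dd₁ ρ y.1 with hcdef
  obtain ⟨hclev, hcoc⟩ := (mem_Z2 (sLevels S) ρ).mp y.2.2
  obtain ⟨_, ⟨F, hF, rfl⟩, hl⟩ := hclev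
  obtain ⟨_, ⟨Fy, hFy, rfl⟩, hly⟩ := y.2.1
  obtain ⟨_, ⟨Fa, hFa, rfl⟩, hla⟩ := a.2.1
  have ha0 : a.1 1 = 0 := by simpa using a.2.2 1 1
  let w : GQ → M := fun g => y.1 g - a.1 g
  have hdw : dd₁ ρ w = c := by
    refine funext fun q => ?_
    obtain ⟨g, h⟩ := q
    simp only [w, hcdef, dd₁_apply, map_sub, a.2.2 g h]
    abel
  have hN := hF.sup hLS
  have hFN : ∀ {g : GQ}, g ∈ (F ⊔ C.L).fixingSubgroup → g ∈ F.fixingSubgroup ∧
      g ∈ C.L.fixingSubgroup := fun hg =>
    ⟨IntermediateField.fixingSubgroup_antitone le_sup_left hg,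
      IntermediateField.fixingSubgroup_antitone le_sup_right hg⟩
  set c0 := c (1, 1) with hc0
  have hcg1 : ∀ g, c (g, 1) = ρ g c0 := fun g => by
    have h : c (g * 1, 1) + c (g, 1) = ρ g (c (1, 1)) + c (g, 1 * 1) := hcoc g 1 1
    rw [mul_one, mul_one] at h
    exact add_right_cancel h
  have hc1g : ∀ g, c (1, g) = c0 := fun g => by
    have h : c (1 * 1, g) + c (1, 1) = ρ 1 (c (1, g)) + c (1, 1 * g) := hcoc 1 1 g
    rw [one_mul, one_mul, map_one, Module.End.one_apply] at h
    exact (add_left_cancel h).symm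
  have hw1 : w 1 = c0 := by
    have h := congrFun hdw (1, 1)
    rw [dd₁_apply, map_one, Module.End.one_apply, one_mul, sub_self, zero_add] at h
    exact h
  have hr : ∀ g, ∀ u ∈ (F ⊔ C.L).fixingSubgroup, w (g * u) = w g + ρ g (w u - c0) ∧
      w (u * g) = w g + (w u - c0) := by
    intro g u hu
    have h1 := congrFun hdw (g, u)
    have h2 := congrFun hdw (u, g)
    rw [dd₁_apply] at h1 h2
    have e1 : c (g, u) = c (g, 1) := by
      have := hl g 1 1 (one_mem _) u (hFN hu).1
      rwa [mul_one, one_mul] at this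
    have e2 : c (u, g) = c (1, g) := by
      have := hl 1 g u (hFN hu).1 1 (one_mem _)
      rwa [one_mul, mul_one] at this
    rw [e1, hcg1] at h1
    rw [e2, hc1g, hρ u (hFN hu).2] at h2
    rw [map_sub]
    exact ⟨by linear_combination (norm := abel) -h1, by linear_combination (norm := abel) -h2⟩
  let W : Subgroup GQ :=
    { carrier := {u | u ∈ (F ⊔ C.L).fixingSubgroup ∧ w u = c0}
      one_mem' := ⟨one_mem _, hw1⟩
      mul_mem' := fun {u v} hu hv => ⟨mul_mem hu.1 hv.1, by
        rw [(hr u v hv.1).1, hv.2, sub_self, map_zero, add_zero, hu.2]⟩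
      inv_mem' := fun {u} hu => ⟨inv_mem hu.1, by
        have h := (hr u⁻¹ u hu.1).1
        rw [inv_mul_cancel, hw1, hu.2, sub_self, map_zero, add_zero] at h
        exact h.symm⟩ }
  have := hN.1
  have := hFy.1
  have := hFa.1
  have : FiniteDimensional ℚ (Fy ⊔ Fa : IntermediateField ℚ Qb) :=
    IntermediateField.finiteDimensional_sup _ _
  have : FiniteDimensional ℚ (F ⊔ C.L ⊔ (Fy ⊔ Fa) : IntermediateField ℚ Qb) :=
    IntermediateField.finiteDimensional_sup _ _
  have hbig : ∀ g ∈ (Fy ⊔ Fa).fixingSubgroup, w g = c0 := fun g hg => by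
    have h1 := hly 1 g (IntermediateField.fixingSubgroup_antitone le_sup_left hg)
    have h2 := hla 1 g (IntermediateField.fixingSubgroup_antitone le_sup_right hg)
    rw [one_mul] at h1 h2
    rw [← hw1]
    simp only [w, h1, h2]
  obtain ⟨E, -, hEfd, hE⟩ := exists_field_of_fixingSubgroup_le
    (F := F ⊔ C.L ⊔ (Fy ⊔ Fa)) (H := W) fun g hg =>
      ⟨IntermediateField.fixingSubgroup_antitone le_sup_left hg,
        hbig g (IntermediateField.fixingSubgroup_antitone le_sup_right hg)⟩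
  have hEu : E.IsUnramifiedOutside S := by
    refine ⟨hEfd, fun q hq B hB σ hσ => ?_⟩
    rw [hE]
    refine ⟨hN.2 q hq B hB hσ, ?_⟩
    by_cases hq' : q ∈ C.S
    · obtain ⟨g, rfl⟩ := TW.exists_smul_eq q.2 (C.liesOver q) hB
      have hτ : g⁻¹ * σ * g ∈ (C.A q).inertiaSubgroupIn ℚ := conj_mem_inertia g hσ
      have hτw : w (g⁻¹ * σ * g) = c0 := by
        have h := congrFun (congrFun hx ⟨⟨q, hq'⟩, hq⟩)
          ⟨⟨g⁻¹ * σ * g, FermatAgent.Local.mem_decomposition_of_inertia hτ⟩, hτ⟩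
        change y.1 (g⁻¹ * σ * g) - c0 = a.1 (g⁻¹ * σ * g) at h
        simp only [w]
        rw [← h]
        abel
      have e1 := (hr g _ (hN.2 q hq (C.A q) (C.liesOver q) hτ)).1
      rw [hτw, sub_self, map_zero, add_zero, show g * (g⁻¹ * σ * g) = σ * g by group,
        (hr g σ (hN.2 q hq _ hB hσ)).2] at e1
      exact sub_eq_zero.mp (add_eq_left.mp e1)
    · exact hbig σ (by
        rw [IntermediateField.fixingSubgroup_sup]
        exact ⟨hFy.2 q hq' B hB hσ, hFa.2 q hq' B hB hσ⟩)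
  refine (cl2_eq_zero_iff (sLevels S) ρ _).mpr ⟨w, ⟨_, ⟨E, hEu, rfl⟩, fun g s hs => ?_⟩, hdw⟩
  rw [hE] at hs
  rw [(hr g s hs.1).1, hs.2, sub_self, map_zero, add_zero]

include hρ hLS hpS hSS in
set_option maxHeartbeats 800000 in
/-- `dim Ш²_S(M) ≤ dim Ш¹_S(M')`. -/
theorem finrank_shaDec2_le :
    FiniteDimensional (ZMod p) (shaDec2 S ρ C.A) ∧
      finrank (ZMod p) (shaDec2 S ρ C.A) ≤ finrank (ZMod p) (shaDec1 S (C.dualRep ρ) C.A) := by
  classical
  have hfin : ∀ i, FiniteDimensional (ZMod p)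
      (H1c (C.datum.locLev i) (ρ.comp (C.datum.D i).subtype)) := fun i => C.finite_H1_at ρ hρ i.1
  have : FiniteDimensional (ZMod p) (H2c C.datum.L ρ) := C.datum.finite_H2 ρ hρ C.valid
  let N := C.newRam ρ hρ S hLS
  let U := LinearMap.range (C.datum.locAll ρ)
  let V := N.range
  let q' := ((U.map N).mkQ ∘ₗ N)
  let Ψ := (U.map N).mkQ ∘ₗ C.tame ρ S
  have hkerq : LinearMap.ker q' = U ⊔ C.freeS ρ S := by
    rw [LinearMap.ker_comp, Submodule.ker_mkQ, Submodule.comap_map_eq, C.ker_newRam]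
  have hrange : LinearMap.range Ψ ≤ LinearMap.range q' := by
    rintro _ ⟨y, rfl⟩
    obtain ⟨t, ht⟩ := C.tame_mem_range ρ hρ S hLS y
    exact ⟨t, congrArg (U.map N).mkQ ht⟩
  have hkill : LinearMap.ker Ψ ≤ LinearMap.ker (C.killClass ρ S) := fun y hy => by
    obtain ⟨_, ⟨x, rfl⟩, hx⟩ := (Submodule.Quotient.mk_eq_zero _).mp (LinearMap.mem_ker.mp hy)
    exact C.killClass_eq_zero ρ hρ S hLS y x hx.symm
  have : FiniteDimensional (ZMod p) (LinearMap.range q') := Module.Finite.range q'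
  have : FiniteDimensional (ZMod p) (LinearMap.range Ψ) :=
    Submodule.finiteDimensional_of_le hrange
  obtain ⟨hfk, hk⟩ := finrank_range_le_of_ker_le Ψ (C.killClass ρ S) hkill
  let f : shaDec2 S ρ C.A →ₗ[ZMod p] C.datum.sha2 ρ :=
    ((C.inflS2 ρ S hSS).domRestrict _).codRestrict _ fun x => (C.datum.mem_sha2 ρ).mpr fun i => by
      rw [LinearMap.domRestrict_apply, C.loc2_inflS2]
      by_cases hi : i.1 ∈ S
      · exact (mem_shaDec2 S ρ C.A).mp x.2 i.1 hi
      · exact decRes2_eq_zero ρ hLS hρ hi (C.liesOver i.1) x.1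
  let ι : LinearMap.ker f →ₗ[ZMod p] LinearMap.range (C.killClass ρ S) :=
    ((shaDec2 S ρ C.A).subtype ∘ₗ (LinearMap.ker f).subtype).codRestrict _ fun x =>
      C.ker_inflS2_le ρ S hSS (congrArg Subtype.val x.2)
  have hι : Function.Injective ι := fun a b h => Subtype.ext (Subtype.ext (congrArg Subtype.val h :))
  have hfker : FiniteDimensional (ZMod p) (LinearMap.ker f) := Module.Finite.of_injective ι hι
  have hquot : FiniteDimensional (ZMod p) (shaDec2 S ρ C.A ⧸ LinearMap.ker f) :=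
    Module.Finite.equiv f.quotKerEquivRange.symm
  have hfsha : FiniteDimensional (ZMod p) (shaDec2 S ρ C.A) :=
    Module.Finite.of_submodule_quotient (LinearMap.ker f)
  refine ⟨hfsha, ?_⟩
  have h1 := LinearMap.finrank_range_add_finrank_ker f
  have h2 := Submodule.finrank_le (LinearMap.range f)
  rw [C.datum.finrank_sha2 ρ hρ C.valid] at h2
  have h3 := LinearMap.finrank_le_finrank_of_injective hι
  have h4 := (hk.trans (Submodule.finrank_mono hrange))
  have h5 := LinearMap.finrank_range_add_finrank_ker q'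
  rw [hkerq] at h5
  replace h5 : finrank (ZMod p) (LinearMap.range q') +
      finrank (ZMod p) (LinearMap.range (C.datum.locAll ρ) ⊔ C.freeS ρ S : Submodule _ _) =
      finrank (ZMod p) (C.datum.Loc1 ρ) := h5
  have h6 := C.finrank_sup_freeS ρ hρ S hLS hpS hSS
  change finrank (ZMod p) (LinearMap.range f) ≤
    finrank (ZMod p) (C.datum.sha1 (C.dualRep ρ)) at h2
  omega

/-- Families of local classes of degree `2` at the primes of `S`. -/
abbrev LocS2 : Type := ∀ q : S, H2c (decLevels (C.A q.1)) (C.resAt ρ q.1)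

instance instAddCommGroupLocS2 : AddCommGroup (C.LocS2 ρ S) := Pi.addCommGroup

instance instModuleLocS2 : Module (ZMod p) (C.LocS2 ρ S) := Pi.module _ _ _

/-- Localisation at the primes of `S`. -/
def locS2 : H2c (sLevels S) ρ →ₗ[ZMod p] C.LocS2 ρ S :=
  LinearMap.pi fun q => decRes2 S ρ (C.A q.1)

omit [FiniteDimensional (ZMod p) M] in
lemma ker_locS2 : LinearMap.ker (C.locS2 ρ S) = shaDec2 S ρ C.A := by
  rw [locS2, LinearMap.ker_pi, shaDec2]

/-- Global invariants of the dual as local invariants. -/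
def invIncl (q : Nat.Primes) :
    (C.dualRep ρ).invariants →ₗ[ZMod p] (dualTw (decChi p (C.A q)) (C.resAt ρ q)).invariants :=
  (C.dualRep ρ).invariants.subtype.codRestrict _ fun f d => f.2 (d : GQ)

omit [FiniteDimensional (ZMod p) M] in
lemma invIncl_injective (q : Nat.Primes) : Function.Injective (C.invIncl ρ q) := fun a b h => by
  exact Subtype.ext (congrArg (fun x : (dualTw (decChi p (C.A q)) (C.resAt ρ q)).invariants => x.1) h)

/-- The evaluation of a local family on the global invariants of the dual. -/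
def recFun (q : Nat.Primes) :
    H2c (decLevels (C.A q)) (C.resAt ρ q) →ₗ[ZMod p] Dual (ZMod p) (C.dualRep ρ).invariants :=
  (C.invIncl ρ q).dualMap ∘ₗ
    dualEval (decLevels (C.A q)) (decChi p (C.A q)) (C.locInv q) (ρ := C.resAt ρ q)

include hρ in
lemma recFun_surjective (q : Nat.Primes) : Function.Surjective (C.recFun ρ q) :=
  (LinearMap.dualMap_surjective_of_injective (C.invIncl_injective ρ q)).comp
    (dualEval_dec_bijective q.2 (C.liesOver q) C.hL (C.locInv q) (C.locInv_ne_zero q)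
      (C.trivialOn_resAt ρ hρ q)).2

set_option maxHeartbeats 1600000 in
include hρ hpS in
/-- Reciprocity bounds the rank of localisation in degree two. -/
theorem finrank_range_locS2 :
    FiniteDimensional (ZMod p) (LinearMap.range (C.locS2 ρ S)) ∧
      finrank (ZMod p) (LinearMap.range (C.locS2 ρ S)) +
        finrank (ZMod p) (C.dualRep ρ).invariants ≤ ∑ q ∈ S, C.dualInv ρ q := by
  classical
  have hfin : ∀ q : S, FiniteDimensional (ZMod p)
      (H2c (decLevels (C.A q.1)) (C.resAt ρ q.1)) := fun q =>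
    finite_H2_dec q.1.2 (C.liesOver q.1) C.hL (C.locInv q.1) (C.locInv_ne_zero q.1)
      (C.trivialOn_resAt ρ hρ q.1)
  refine ⟨inferInstance, ?_⟩
  let ψ : C.LocS2 ρ S →ₗ[ZMod p]
      Dual (ZMod p) (C.dualRep ρ).invariants :=
    ∑ q : S, C.recFun ρ q.1 ∘ₗ LinearMap.proj q
  have hψ : Function.Surjective ψ := fun φ => by
    obtain ⟨t, ht⟩ := C.recFun_surjective ρ hρ (ExtCitation.pPrime p) φ
    refine ⟨Pi.single ⟨_, hpS⟩ t, ?_⟩
    rw [show ψ = ∑ q : S, C.recFun ρ q.1 ∘ₗ LinearMap.proj q from rfl, LinearMap.sum_apply,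
      Finset.sum_eq_single (⟨_, hpS⟩ : S)
        (fun j _ hj => by rw [LinearMap.comp_apply, LinearMap.proj_apply, Pi.single_eq_of_ne hj,
          map_zero]) (by simp), LinearMap.comp_apply, LinearMap.proj_apply, Pi.single_eq_same]
    exact ht
  have hle : LinearMap.range (C.locS2 ρ S) ≤ LinearMap.ker ψ := by
    rintro _ ⟨x, rfl⟩
    refine LinearMap.mem_ker.mpr (LinearMap.ext fun f => ?_)
    rw [show ψ = ∑ q : S, C.recFun ρ q.1 ∘ₗ LinearMap.proj q from rfl, LinearMap.sum_apply,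
      LinearMap.sum_apply, LinearMap.zero_apply]
    refine Eq.trans ?_ ((exists_reciprocity p C.hp C.A C.liesOver).choose_spec.2 S hpS
      (map2 ρ (cycloRep p) (isLevHom_id (sLevels S))
        (isEquivariant_of_mem_invariants (ExtCitation.cycloChar p) ρ f.2) x)
      fun q => isLevHom_comap_sLevels _ S)
    rw [← Finset.sum_coe_sort S]
    refine Finset.sum_congr rfl fun q _ => ?_
    show dualEval (decLevels (C.A q.1)) (decChi p (C.A q.1)) (C.locInv q.1)
      (ρ := C.resAt ρ q.1) (decRes2 S ρ (C.A q.1) x) _ = _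
    rw [dualEval_apply]
    refine congrArg (C.locInv q.1) ?_
    induction x using Submodule.Quotient.induction_on with
    | _ z => rfl
  have h1 := LinearMap.finrank_range_add_finrank_ker ψ
  rw [LinearMap.range_eq_top.mpr hψ, finrank_top, Subspace.dual_finrank_eq] at h1
  have h2 := Submodule.finrank_mono hle
  have hfree : ∀ q : S, Module.Free (ZMod p) (H2c (decLevels (C.A q.1)) (C.resAt ρ q.1)) :=
    fun q => Module.Free.of_divisionRing (ZMod p) _
  have h3 : finrank (ZMod p) (C.LocS2 ρ S) =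
      ∑ q ∈ S, C.dualInv ρ q := by
    rw [Module.finrank_pi_fintype (ZMod p), ← Finset.sum_coe_sort S]
    exact Finset.sum_congr rfl fun q _ => finrank_H2_dec q.1.2 (C.liesOver q.1) C.hL
      (C.locInv q.1) (C.locInv_ne_zero q.1) (C.trivialOn_resAt ρ hρ q.1)
  omega

set_option maxHeartbeats 1600000 in
include hρ hLS hpS hSS in
/-- The upper bound for `H²(G_{ℚ,S}, M)`. -/
theorem finrank_H2S_le :
    FiniteDimensional (ZMod p) (H2c (sLevels S) ρ) ∧
      finrank (ZMod p) (H2c (sLevels S) ρ) + finrank (ZMod p) (C.dualRep ρ).invariants ≤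
        finrank (ZMod p) (shaDec2 S ρ C.A) + ∑ q ∈ S, C.dualInv ρ q := by
  obtain ⟨h1, -⟩ := C.finrank_shaDec2_le ρ hρ S hLS hpS hSS
  obtain ⟨h2, hb⟩ := C.finrank_range_locS2 ρ hρ S hpS
  have : FiniteDimensional (ZMod p) (LinearMap.ker (C.locS2 ρ S)) := by
    rw [C.ker_locS2]
    exact h1
  have : FiniteDimensional (ZMod p) (H2c (sLevels S) ρ ⧸ LinearMap.ker (C.locS2 ρ S)) :=
    Module.Finite.equiv (C.locS2 ρ S).quotKerEquivRange.symm
  have hfin : FiniteDimensional (ZMod p) (H2c (sLevels S) ρ) :=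
    Module.Finite.of_submodule_quotient (LinearMap.ker (C.locS2 ρ S))
  refine ⟨hfin, ?_⟩
  have h3 := LinearMap.finrank_range_add_finrank_ker (C.locS2 ρ S)
  rw [C.ker_locS2] at h3
  omega

end RatCtx

end

end FermatAgent.Duality
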