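import Fermat.Agent.Duality.Global.CyclicExt
import Fermat.Agent.Duality.Global.Unramified
import Fermat.Agent.Duality.Instance.Fields
import Fermat.Agent.TW.Cyclo
import Fermat.Agent.TW.Decomposition
import Fermat.Agent.LocalP.Minkowski

/-!
# A root of unity which is no local `p`-th power over `S`

A normal field unramified outside `S` is enlarged by `μ_{p^n}` with `n` large: then `ζ_{p^n}` is no
`p`-th power in any completion over `S`, as the local cyclotomic images are open.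
-/

set_option autoImplicit false

open scoped Pointwise

namespace FermatAgent.Duality

open FermatAgent.TW

noncomputable section

local notation "Qb" => AlgebraicClosure ℚ
local notation "GQ" => AlgebraicClosure ℚ ≃ₐ[ℚ] AlgebraicClosure ℚ

attribute [local instance] FermatAgent.RT.isGalois_algClosureRat Global.numberField_of_finite

variable {p : ℕ} [Fact p.Prime]

lemma normal_fixMu (N : ℕ) : (fixMu p N).Normal :=
  ⟨fun _ hσ g => conj_mem_fixMu g hσ⟩

/-- Inertia away from `p` fixes the roots of unity of `p`-power order. -/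
lemma inertia_le_fixMu {q : Nat.Primes} (hqp : (q : ℕ) ≠ p) {A : ValuationSubring Qb}
    (hA : A.LiesOverPrime (q : ℕ)) (N : ℕ) : A.inertiaSubgroupIn ℚ ≤ fixMu p N := by
  intro i hi z hz
  have hp := (Fact.out : p.Prime)
  have h0 : p ^ N ≠ 0 := pow_ne_zero _ hp.ne_zero
  refine Global.eq_of_val_sub_lt q.2 hA (fun h => hqp ((Nat.prime_dvd_prime_iff_eq q.2 hp).mp
    (q.2.dvd_of_dvd_pow h))) h0 (apply_mem_rootsOf i hz) hz
    (FermatAgent.Local.inertia_val_sub_lt_one hi ((A.valuation_le_one_iff z).mp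
      (Global.val_eq_one_of_pow_eq_one h0 hz).le))

/-- Inertia at `p` realises every automorphism of `μ_{p^N}`. -/
theorem exists_inertia_apply_eq {A : ValuationSubring Qb} (hA : A.LiesOverPrime p) (N : ℕ)
    {ζ : Qb} (hζ : IsPrimitiveRoot ζ (p ^ N)) {a : ℕ} (ha : a.Coprime (p ^ N)) :
    ∃ i ∈ A.inertiaSubgroupIn ℚ, i ζ = ζ ^ a := by
  have hp := (Fact.out : p.Prime)
  have hn := normal_fixMu (p := p) N
  have hHn : (fixMu p N ⊔ A.inertiaSubgroupIn ℚ).Normal := ⟨fun h hh g => by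
    have hc := (le_sup_left : fixMu p N ≤ fixMu p N ⊔ A.inertiaSubgroupIn ℚ)
      (commutator_mem_fixMu (p := p) N g h)
    simpa [mul_assoc] using mul_mem hc hh⟩
  obtain ⟨F, hF, hFle⟩ := exists_field_le_fixMu p N
  have htop : fixMu p N ⊔ A.inertiaSubgroupIn ℚ = ⊤ :=
    LocalP.eq_top_of_inertia_le _ F (hFle.trans le_sup_left) fun q hq B hB => by
      by_cases hqp : q = p
      · subst hqp
        obtain ⟨g, rfl⟩ := TW.exists_smul_eq hq hA hB
        intro i hi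
        have h := (le_sup_right : _ ≤ fixMu q N ⊔ A.inertiaSubgroupIn ℚ) (conj_mem_inertia g hi)
        have := hHn.conj_mem _ h g
        simpa [mul_assoc] using this
      · exact (inertia_le_fixMu (q := ⟨q, hq⟩) hqp hB N).trans le_sup_left
  have hmin : minpoly ℚ ζ = minpoly ℚ (ζ ^ a) := by
    rw [← Polynomial.cyclotomic_eq_minpoly_rat hζ (pow_pos hp.pos N),
      ← Polynomial.cyclotomic_eq_minpoly_rat (hζ.pow_of_coprime _ ha) (pow_pos hp.pos N)]
  have : Normal ℚ Qb := FermatAgent.RT.isGalois_algClosureRat.to_normal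
  obtain ⟨σ, hσ⟩ := (Normal.minpoly_eq_iff_mem_orbit (F := ℚ) (E := Qb)).1 hmin.symm
  have hmem : σ ∈ ((fixMu p N ⊔ A.inertiaSubgroupIn ℚ : Subgroup GQ) : Set GQ) := by
    rw [htop]
    trivial
  rw [Subgroup.normal_mul] at hmem
  obtain ⟨f, hf, i, hi, rfl⟩ := Set.mem_mul.mp hmem
  refine ⟨i, hi, ?_⟩
  rw [← hf (i ζ) (apply_mem_rootsOf i hζ.pow_eq_one)]
  exact hσ

variable {L : IntermediateField ℚ Qb} [FiniteDimensional ℚ L] [L.fixingSubgroup.Normal]

/-- The local cyclotomic image is not finite. -/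
theorem exists_dec_notMem_fixMu (hp2 : p ≠ 2) {q : Nat.Primes} {A : ValuationSubring Qb}
    (hA : A.LiesOverPrime (q : ℕ)) :
    ∃ M : ℕ, ∃ σ ∈ L.fixingSubgroup ⊓ A.decompositionSubgroup ℚ, σ ∉ fixMu p M := by
  have hp := (Fact.out : p.Prime)
  have := finiteIndex_fixingSubgroup L
  set a := if (q : ℕ) = p then 2 else (q : ℕ) with hadef
  have ha1 : 1 < a := by
    rw [hadef]
    split_ifs
    exacts [one_lt_two, q.2.one_lt]
  have hap : a.Coprime p := by
    rw [hadef]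
    split_ifs with h
    exacts [(Nat.coprime_primes Nat.prime_two hp).2 (Ne.symm hp2),
      (Nat.coprime_primes q.2 hp).2 h]
  set M := a ^ L.fixingSubgroup.index with hM
  have : NeZero (p ^ M) := ⟨pow_ne_zero _ hp.ne_zero⟩
  obtain ⟨ζ, hζ⟩ := exists_primitiveRoot_qbar (p ^ M)
  obtain ⟨d, hd, hdζ⟩ : ∃ d ∈ A.decompositionSubgroup ℚ, d ζ = ζ ^ a := by
    by_cases h : (q : ℕ) = p
    · obtain ⟨i, hi, he⟩ := exists_inertia_apply_eq (A := A) (h ▸ hA) M hζ (hap.pow_right M)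
      exact ⟨i, FermatAgent.Local.mem_decomposition_of_inertia hi, he⟩
    · obtain ⟨F, hF⟩ := RT.exists_isFrobeniusAt q.2 hA
      refine ⟨F, (TW.isFrobeniusAt_iff.1 hF).1, ?_⟩
      rw [hadef, if_neg h]
      exact Global.eq_of_val_sub_lt q.2 hA (fun h' => h ((Nat.prime_dvd_prime_iff_eq q.2 hp).mp
        (q.2.dvd_of_dvd_pow h'))) (NeZero.ne _) (by rw [← map_pow, hζ.pow_eq_one, map_one])
        (by rw [← pow_mul, mul_comm, pow_mul, hζ.pow_eq_one, one_pow])
        ((TW.isFrobeniusAt_iff.1 hF).2 ζ ((A.valuation_le_one_iff ζ).1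
          (Global.val_eq_one_of_pow_eq_one (NeZero.ne _) hζ.pow_eq_one).le))
  have hpow : ∀ k : ℕ, (d ^ k) ζ = ζ ^ a ^ k := fun k => by
    induction k with
    | zero => simp
    | succ k ih => rw [pow_succ' d, AlgEquiv.mul_apply, ih, map_pow, hdζ, ← pow_mul, pow_succ']
  refine ⟨M, d ^ L.fixingSubgroup.index,
    ⟨Subgroup.pow_index_mem _ d, pow_mem hd _⟩, fun hfix => ?_⟩
  have h := hfix ζ hζ.pow_eq_one
  rw [hpow, ← hM] at h
  have hlt : M < p ^ M := Nat.lt_pow_self hp.one_lt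
  have h1 : 1 < M := Nat.one_lt_pow Subgroup.FiniteIndex.index_ne_zero ha1
  have h2 := hζ.pow_inj hlt (lt_trans h1 hlt) (h.trans (pow_one ζ).symm)
  omega

/-- Climbing in the local cyclotomic image. -/
theorem exists_step (hp2 : p ≠ 2) {H : Subgroup GQ} {σ : GQ} (hσ : σ ∈ H) (h1 : σ ∈ fixMu p 1)
    {M n : ℕ} (hMn : M ≤ n) (hσM : σ ∉ fixMu p M) :
    ∃ τ ∈ H, τ ∈ fixMu p n ∧ τ ∉ fixMu p (n + 1) := by
  classical
  have hp := (Fact.out : p.Prime)
  have : NeZero (p ^ (n + 1)) := ⟨pow_ne_zero _ hp.ne_zero⟩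
  obtain ⟨ζ, hζ⟩ := exists_primitiveRoot_qbar (p ^ (n + 1))
  obtain ⟨a, -, ha⟩ := hζ.eq_pow_of_pow_eq_one (apply_mem_rootsOf σ hζ.pow_eq_one)
  have hpow : ∀ k : ℕ, (σ ^ k) ζ = ζ ^ a ^ k := fun k => by
    induction k with
    | zero => simp
    | succ k ih => rw [pow_succ' σ, AlgEquiv.mul_apply, ih, map_pow, ← ha, ← pow_mul, pow_succ']
  have hmem : ∀ k b : ℕ, (σ ^ k) ζ = ζ ^ b → ∀ m ≤ n + 1, b ≡ 1 [MOD p ^ m] →
      σ ^ k ∈ fixMu p m := by
    intro k b hb m hm hcong z hz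
    obtain ⟨i, -, rfl⟩ := hζ.eq_pow_of_pow_eq_one (ξ := z) (by
      rw [← Nat.add_sub_cancel' hm, pow_add, pow_mul, hz, one_pow])
    rw [map_pow, hb, ← pow_mul, mul_comm, pow_mul]
    conv_rhs => rw [← pow_one (ζ ^ i)]
    rw [pow_eq_pow_mod b hz, hcong, ← pow_eq_pow_mod 1 hz]
  have hap : a ≡ 1 [MOD p] := by
    have hz : IsPrimitiveRoot (ζ ^ p ^ n) p := hζ.pow (pow_pos hp.pos _) (pow_succ p n)
    have h := h1 (ζ ^ p ^ n) (by rw [pow_one]; exact hz.pow_eq_one)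
    rw [map_pow, ← ha, ← pow_mul, mul_comm, pow_mul] at h
    conv_rhs at h => rw [← pow_one (ζ ^ p ^ n)]
    rwa [(hz.isOfFinOrder hp.ne_zero).pow_eq_pow_iff_modEq, ← hz.eq_orderOf] at h
  have ha0 : a ≠ 0 := by
    rintro rfl
    rw [Nat.ModEq, Nat.zero_mod, Nat.one_mod_eq_one.mpr hp.ne_one] at hap
    exact zero_ne_one hap
  have hfix : ∀ k : ℕ, σ ^ k ∈ fixMu p (n + 1) ↔ a ^ k ≡ 1 [MOD p ^ (n + 1)] := by
    refine fun k => ⟨fun h => ?_, hmem k _ (hpow k) (n + 1) le_rfl⟩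
    have := h ζ hζ.pow_eq_one
    rw [hpow] at this
    conv_rhs at this => rw [← pow_one ζ]
    rwa [(hζ.isOfFinOrder (NeZero.ne _)).pow_eq_pow_iff_modEq, ← hζ.eq_orderOf] at this
  have hex : ∃ j, σ ^ p ^ j ∈ fixMu p (n + 1) := by
    refine ⟨n, (hfix _).mpr ((Nat.modEq_iff_dvd' (Nat.one_le_pow _ _ (Nat.pos_of_ne_zero ha0))).mpr
      ?_).symm⟩
    have h := dvd_sub_pow_of_dvd_sub (R := ℤ) (p := p) (a := a) (b := 1)
      (by exact_mod_cast (Nat.modEq_iff_dvd.mp hap.symm)) n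
    rw [one_pow] at h
    rw [← Int.natCast_dvd_natCast, Nat.cast_sub (Nat.one_le_pow _ _ (Nat.pos_of_ne_zero ha0))]
    exact_mod_cast h
  set j := Nat.find hex with hj
  have hj0 : j ≠ 0 := by
    intro h
    have h' := Nat.find_spec hex
    rw [← hj, h, pow_zero, pow_one] at h'
    exact hσM fun z hz => h' z (by
      rw [show n + 1 = M + (n + 1 - M) by omega, pow_add, pow_mul, hz, one_pow])
  obtain ⟨i, hi⟩ := Nat.exists_eq_succ_of_ne_zero hj0
  have hnot : σ ^ p ^ i ∉ fixMu p (n + 1) := Nat.find_min hex (by omega)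
  refine ⟨σ ^ p ^ i, pow_mem hσ _, hmem _ _ (hpow _) n (by omega) ?_, hnot⟩
  set b := a ^ p ^ i
  have hb1 : 1 ≤ b := Nat.one_le_pow _ _ (Nat.pos_of_ne_zero ha0)
  have hbp : b ≡ 1 [MOD p] := by simpa using hap.pow (p ^ i)
  have hbpp : b ^ p ≡ 1 [MOD p ^ (n + 1)] := by
    rw [← pow_mul, ← pow_succ]
    refine (hfix _).mp ?_
    have := Nat.find_spec hex
    rwa [← hj, hi] at this
  have hdvd : ¬ p ∣ b := fun h => by
    rw [Nat.ModEq, Nat.mod_eq_zero_of_dvd h, Nat.one_mod_eq_one.mpr hp.ne_one] at hbp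
    exact zero_ne_one hbp
  have hlte := Nat.emultiplicity_pow_sub_pow hp (hp.odd_of_ne_two hp2) (x := b) (y := 1)
    ((Nat.modEq_iff_dvd' hb1).mp hbp.symm) hdvd p
  rw [one_pow, hp.emultiplicity_self] at hlte
  refine ((Nat.modEq_iff_dvd' hb1).mpr ?_).symm
  rw [pow_dvd_iff_le_emultiplicity]
  have hge : ((n + 1 : ℕ) : ℕ∞) ≤ emultiplicity p (b - 1) + 1 := by
    rw [← hlte]
    exact pow_dvd_iff_le_emultiplicity.mp
      ((Nat.modEq_iff_dvd' (Nat.one_le_pow _ _ hb1)).mp hbpp.symm)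
  push_cast at hge
  exact (ENat.add_le_add_iff_right ENat.one_ne_top).mp hge

set_option maxHeartbeats 800000 in
/-- **The enlarged field.** -/
theorem exists_enlarged (hp2 : p ≠ 2) (hL : ContainsMuP p L) {S : Finset Nat.Primes}
    (hS : L.IsUnramifiedOutside S) (hpS : ExtCitation.pPrime p ∈ S) :
    ∃ (L' : IntermediateField ℚ Qb) (_ : FiniteDimensional ℚ L') (hL' : ContainsMuP p L')
      (e : L'ˣ), L'.fixingSubgroup.Normal ∧ L'.IsUnramifiedOutside S ∧
        L'.fixingSubgroup ≤ L.fixingSubgroup ∧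
        (∀ P : IsDedekindDomain.HeightOneSpectrum (NumberField.RingOfIntegers L'),
          Global.ord P e = 0) ∧
        ∀ q ∈ S, ∀ A : ValuationSubring Qb, A.LiesOverPrime (q : ℕ) →
          Global.locF1 A (Global.kappa hL' e) ≠ 0 := by
  classical
  have hp := (Fact.out : p.Prime)
  have hex : ∀ q : Nat.Primes, ∃ M : ℕ, ∀ A : ValuationSubring Qb, A.LiesOverPrime (q : ℕ) →
      ∃ σ ∈ L.fixingSubgroup ⊓ A.decompositionSubgroup ℚ, σ ∉ fixMu p M := by
    intro q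
    obtain ⟨A, hA⟩ := RT.exists_liesOverPrime q.2
    obtain ⟨M, σ, hσ, hσM⟩ := exists_dec_notMem_fixMu (p := p) (L := L) hp2 hA
    refine ⟨M, fun B hB => ?_⟩
    obtain ⟨g, rfl⟩ := TW.exists_smul_eq q.2 hA hB
    refine ⟨g * σ * g⁻¹, ⟨(inferInstance : L.fixingSubgroup.Normal).conj_mem _ hσ.1 g, ?_⟩,
      fun h => hσM ?_⟩
    · show g * σ * g⁻¹ ∈ MulAction.stabilizer GQ (g • A)
      rw [MulAction.mem_stabilizer_iff, mul_smul, mul_smul, inv_smul_smul]
      exact congrArg _ hσ.2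
    · have := conj_mem_fixMu g⁻¹ h
      simpa [mul_assoc] using this
  choose Mq hMq using hex
  set n := 1 + ∑ q ∈ S, Mq q with hn
  obtain ⟨Fn, hFn, hFnle⟩ := exists_field_le_fixMu p n
  have : FiniteDimensional ℚ (L ⊔ Fn : IntermediateField ℚ Qb) :=
    IntermediateField.finiteDimensional_sup _ _
  obtain ⟨L', -, hL'fd, hL'⟩ := exists_field_of_fixingSubgroup_le (F := L ⊔ Fn)
    (H := L.fixingSubgroup ⊓ fixMu p n) fun g hg =>
      ⟨IntermediateField.fixingSubgroup_antitone le_sup_left hg,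
        hFnle (IntermediateField.fixingSubgroup_antitone le_sup_right hg)⟩
  have hμ : ContainsMuP p L' := fun g hg => by
    rw [hL'] at hg
    exact hL g hg.1
  have : NeZero (p ^ n) := ⟨pow_ne_zero _ hp.ne_zero⟩
  obtain ⟨ζ, hζ⟩ := exists_primitiveRoot_qbar (p ^ n)
  have hζL : ζ ∈ L' := by
    rw [← InfiniteGalois.fixedField_fixingSubgroup L']
    rintro ⟨g, hg⟩
    rw [hL'] at hg
    exact hg.2 ζ hζ.pow_eq_one
  have hζ0 : ζ ≠ 0 := hζ.ne_zero (NeZero.ne _)
  let e : L'ˣ := Units.mk0 ⟨ζ, hζL⟩ fun h => hζ0 (congrArg Subtype.val h)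
  refine ⟨L', hL'fd, hμ, e, ?_, ⟨hL'fd, fun q hq A hA i hi => ?_⟩, fun g hg => ?_, fun P => ?_,
    fun q hq A hA hzero => ?_⟩
  · have := normal_fixMu (p := p) n
    rw [hL']
    infer_instance
  · rw [hL']
    exact ⟨hS.2 q hq A hA hi, inertia_le_fixMu (fun h => hq (by
      rwa [show q = ExtCitation.pPrime p from Subtype.ext h])) hA n hi⟩
  · rw [hL'] at hg
    exact hg.1
  · have h : e ^ p ^ n = 1 := Units.ext (Subtype.ext (by simpa [e] using hζ.pow_eq_one))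
    have h' := congrArg (Global.ord P) h
    rw [Global.ord_pow, Global.ord_one, mul_eq_zero] at h'
    exact h'.resolve_left (by exact_mod_cast pow_ne_zero n hp.ne_zero)
  · obtain ⟨σ, hσ, hσM⟩ := hMq q A hA
    obtain ⟨τ, hτH, hτn, hτn1⟩ := exists_step hp2 hσ (fun z hz => by
      rw [pow_one] at hz
      have : NeZero p := ⟨hp.ne_zero⟩
      obtain ⟨z₀, hz₀⟩ := exists_primitiveRoot_qbar p
      obtain ⟨i, -, rfl⟩ := hz₀.eq_pow_of_pow_eq_one hz
      rw [map_pow]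
      congr 1
      rw [apply_root_eq_pow hz₀, hL σ hσ.1, Units.val_one, ZMod.val_one, pow_one])
      (show Mq q ≤ n by
        have := Finset.single_le_sum (f := Mq) (fun i _ => Nat.zero_le _) hq
        omega) hσM
    rw [Global.locF1_kappa, Local.kapHom_eq_zero_iff] at hzero
    obtain ⟨b, hb⟩ := hzero
    have hbv : (((b : Qbˣ) : Qb)) ^ p = ζ := by
      have := congrArg (fun x => ((x.1 : Qbˣ) : Qb)) hb
      simpa [e, Global.toLocal] using this
    have hbfix : τ ((b : Qbˣ) : Qb) = ((b : Qbˣ) : Qb) :=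
      b.2 τ ⟨by rw [hL']; exact ⟨hτH.1, hτn⟩, hτH.2⟩
    have hbprim : IsPrimitiveRoot ((b : Qbˣ) : Qb) (p ^ (n + 1)) := by
      rw [IsPrimitiveRoot.iff_orderOf]
      refine orderOf_eq_prime_pow ?_ ?_
      · obtain ⟨m, hm⟩ : ∃ m, n = m + 1 := ⟨n - 1, by omega⟩
        rw [hm, pow_succ', pow_mul, hbv]
        exact hζ.pow_ne_one_of_pos_of_lt (pow_ne_zero _ hp.ne_zero)
          (by rw [hm]; exact Nat.pow_lt_pow_right hp.one_lt (Nat.lt_succ_self m))
      · rw [pow_succ', pow_mul, hbv, hζ.pow_eq_one]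
    refine hτn1 fun z hz => ?_
    have : NeZero (p ^ (n + 1)) := ⟨pow_ne_zero _ hp.ne_zero⟩
    obtain ⟨i, -, rfl⟩ := hbprim.eq_pow_of_pow_eq_one hz
    rw [map_pow, hbfix]

end

end FermatAgent.Duality
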