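import Fermat.Agent.Duality.Small.Bound

/-!
# Equality from the induced modules

The Euler characteristic of `G_{ℚ,S}` is at most the expected one and subadditive in extensions, so
it is the expected one as soon as this holds for induced modules, and then `dim Ш²_S(M)` is
`dim Ш¹_S(M')`.
-/

set_option autoImplicit false

namespace FermatAgent.Duality

open Module

noncomputable section

local notation "Qb" => AlgebraicClosure ℚ
local notation "GQ" => AlgebraicClosure ℚ ≃ₐ[ℚ] AlgebraicClosure ℚ

attribute [local instance] FermatAgent.RT.isGalois_algClosureRat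

variable {p : ℕ} [Fact p.Prime]

section Les

variable {G : Type} [Group G] {L : LevelSystem G} {A B C : Type} [AddCommGroup A]
  [Module (ZMod p) A] [AddCommGroup B] [Module (ZMod p) B] [AddCommGroup C] [Module (ZMod p) C]
  [FiniteDimensional (ZMod p) B] {ρA : Representation (ZMod p) G A}
  {ρB : Representation (ZMod p) G B} {ρC : Representation (ZMod p) G C}

/-- `h⁰ - h¹ + h²` is subadditive in extensions. -/
theorem eulerChar_le_of_SES (S : SES ρA ρB ρC) (hB : IsSmooth L ρB)
    [FiniteDimensional (ZMod p) (H1c L ρA)] [FiniteDimensional (ZMod p) (H1c L ρC)]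
    [FiniteDimensional (ZMod p) (H2c L ρA)] [FiniteDimensional (ZMod p) (H2c L ρC)]
    [FiniteDimensional (ZMod p) (H1c L ρB)] [FiniteDimensional (ZMod p) (H2c L ρB)] :
    eulerChar L ρB ≤ eulerChar L ρA + eulerChar L ρC := by
  have : FiniteDimensional (ZMod p) A := Module.Finite.of_injective S.incl S.injective
  have : FiniteDimensional (ZMod p) C := Module.Finite.of_surjective S.proj S.surjective
  have hi0 : Function.Injective S.inv0 := fun a b h =>
    Subtype.ext (S.injective (congrArg Subtype.val h))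
  have e0 : LinearMap.ker S.pinv0 = LinearMap.range S.inv0 := by
    ext b
    refine ⟨fun h => ?_, ?_⟩
    · obtain ⟨a, ha⟩ := (S.exact b.1).mp (congrArg Subtype.val h)
      exact ⟨⟨a, fun g => S.injective (by rw [S.incl_equiv, ha, b.2 g])⟩, Subtype.ext ha⟩
    · rintro ⟨a, rfl⟩
      exact Subtype.ext (S.proj_incl a.1)
  have e0' : LinearMap.ker (S.delta₀ L hB) = LinearMap.range S.pinv0 := by
    ext c
    rw [LinearMap.mem_ker, S.delta₀_eq_zero_iff]
    refine ⟨fun ⟨b, hb, h⟩ => ⟨⟨b, hb⟩, Subtype.ext h⟩, ?_⟩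
    rintro ⟨b, rfl⟩
    exact ⟨b.1, b.2, rfl⟩
  have r0 := LinearMap.finrank_range_add_finrank_ker S.pinv0
  have r0' := LinearMap.finrank_range_add_finrank_ker (S.delta₀ L hB)
  have r1 := LinearMap.finrank_range_add_finrank_ker (S.i1 L)
  have r1' := LinearMap.finrank_range_add_finrank_ker (S.p1 L)
  have r2 := LinearMap.finrank_range_add_finrank_ker (S.delta₁ L hB)
  have r3 := LinearMap.finrank_range_add_finrank_ker (S.i2 L)
  have r4 := LinearMap.finrank_range_add_finrank_ker (S.p2 L)
  have r5 := Submodule.finrank_le (LinearMap.range (S.p2 L))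
  rw [e0, LinearMap.finrank_range_of_inj hi0] at r0
  rw [e0'] at r0'
  rw [← S.range_delta₀ L hB] at r1
  rw [← S.range_i1 L hB] at r1'
  rw [← S.range_p1 L hB] at r2
  rw [← S.range_delta₁ L hB] at r3
  rw [← S.range_i2 L hB] at r4
  simp only [eulerChar]
  omega

end Les

section Conj

variable {A B C : Type} [AddCommGroup A] [Module (ZMod p) A] [AddCommGroup B] [Module (ZMod p) B]
  [AddCommGroup C] [Module (ZMod p) C] [FiniteDimensional (ZMod p) B]
  {ρA : Representation (ZMod p) GQ A} {ρB : Representation (ZMod p) GQ B}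
  {ρC : Representation (ZMod p) GQ C}

/-- The `-1`-eigenspace of complex conjugation is exact for odd `p`. -/
lemma finrank_ker_conj_add_one_of_SES (hp : p ≠ 2) (S : SES ρA ρB ρC) :
    finrank (ZMod p) (LinearMap.ker (ρB complexConjugation + 1)) =
      finrank (ZMod p) (LinearMap.ker (ρA complexConjugation + 1)) +
        finrank (ZMod p) (LinearMap.ker (ρC complexConjugation + 1)) := by
  let f : LinearMap.ker (ρA complexConjugation + 1) →ₗ[ZMod p]
      LinearMap.ker (ρB complexConjugation + 1) :=
    S.incl.restrict fun a ha => by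
      rw [LinearMap.mem_ker, LinearMap.add_apply, Module.End.one_apply] at ha ⊢
      rw [← S.incl_equiv, ← map_add, ha, map_zero]
  let g : LinearMap.ker (ρB complexConjugation + 1) →ₗ[ZMod p]
      LinearMap.ker (ρC complexConjugation + 1) :=
    S.proj.restrict fun b hb => by
      rw [LinearMap.mem_ker, LinearMap.add_apply, Module.End.one_apply] at hb ⊢
      rw [← S.proj_equiv, ← map_add, hb, map_zero]
  have hf : Function.Injective f := fun a b h =>
    Subtype.ext (S.injective (congrArg Subtype.val h))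
  have hker : LinearMap.ker g = LinearMap.range f := by
    ext b
    refine ⟨fun h => ?_, ?_⟩
    · obtain ⟨a, ha⟩ := (S.exact b.1).mp (congrArg Subtype.val h)
      refine ⟨⟨a, ?_⟩, Subtype.ext ha⟩
      rw [LinearMap.mem_ker, LinearMap.add_apply, Module.End.one_apply]
      refine S.injective ?_
      rw [map_add, S.incl_equiv, ha, map_zero]
      exact LinearMap.mem_ker.mp b.2
    · rintro ⟨a, rfl⟩
      exact Subtype.ext (S.proj_incl a.1)
  have hg : Function.Surjective g := fun c => by
    obtain ⟨b, hb⟩ := S.surjective c.1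
    have hcc : ∀ m, ρB complexConjugation (ρB complexConjugation m) = m := fun m => by
      rw [← Module.End.mul_apply, ← map_mul, complexConjugation_mul_self, map_one,
        Module.End.one_apply]
    have hc : ρC complexConjugation c.1 = -c.1 := eq_neg_of_add_eq_zero_left (by
      have := LinearMap.mem_ker.mp c.2
      rwa [LinearMap.add_apply, Module.End.one_apply] at this)
    refine ⟨⟨(2 : ZMod p)⁻¹ • (b - ρB complexConjugation b), ?_⟩, Subtype.ext ?_⟩
    · rw [LinearMap.mem_ker, LinearMap.add_apply, Module.End.one_apply, map_smul, map_sub, hcc,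
        ← smul_add, sub_add_sub_cancel, sub_self, smul_zero]
    · show S.proj ((2 : ZMod p)⁻¹ • (b - ρB complexConjugation b)) = c.1
      rw [map_smul, map_sub, S.proj_equiv, hb, hc, sub_neg_eq_add, ← two_smul (ZMod p) c.1,
        smul_smul, inv_mul_cancel₀ (two_ne_zero_of_ne_two hp), one_smul]
  rw [← LinearMap.finrank_range_add_finrank_ker g, LinearMap.range_eq_top.mpr hg, finrank_top,
    hker, LinearMap.finrank_range_of_inj hf, add_comm]

end Conj

namespace RatCtx

variable (C : RatCtx p) (S : Finset Nat.Primes) (hLS : C.L.IsUnramifiedOutside S)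
  (hpS : ExtCitation.pPrime p ∈ S) (hSS : S ⊆ C.S)
variable {M : Type} [AddCommGroup M] [Module (ZMod p) M] [FiniteDimensional (ZMod p) M]
  (ρ : Representation (ZMod p) GQ M) (hρ : TrivialOn C.L.fixingSubgroup ρ)

/-- The defect of the Euler characteristic formula for `G_{ℚ,S}`. -/
def eulerDefect : ℤ :=
  eulerChar (sLevels S) ρ + finrank (ZMod p) (LinearMap.ker (ρ complexConjugation + 1))

include hρ hLS hpS hSS C in
/-- Finiteness, and the defect plus `dim Ш¹_S(M')` is at most `dim Ш²_S(M)`. -/
theorem eulerDefect_le :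
    FiniteDimensional (ZMod p) (H1c (sLevels S) ρ) ∧ FiniteDimensional (ZMod p) (H2c (sLevels S) ρ) ∧
      eulerDefect S ρ + finrank (ZMod p) (shaDec1 S (C.dualRep ρ) C.A) ≤
        finrank (ZMod p) (shaDec2 S ρ C.A) := by
  obtain ⟨hfin, h2⟩ := C.finrank_H2S_le ρ hρ S hLS hpS hSS
  have h1 := C.finrank_H1S_ge ρ hρ S hLS hpS hSS
  refine ⟨finite_H1c_sLevels ρ (fun m => ⟨C.L, inferInstance, fun s hs => hρ s hs m⟩) S, hfin, ?_⟩
  simp only [eulerDefect, eulerChar]
  omega

include hρ hLS hpS hSS C in
theorem eulerDefect_nonpos : eulerDefect S ρ ≤ 0 := by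
  obtain ⟨-, -, h⟩ := C.eulerDefect_le S hLS hpS hSS ρ hρ
  have h' := (C.finrank_shaDec2_le ρ hρ S hLS hpS hSS).2
  omega

set_option maxHeartbeats 800000 in
include hρ hLS hpS hSS in
/-- **`dim Ш²_S(M) = dim Ш¹_S(M')`**, given the Euler characteristic of the induced module. -/
theorem finrank_shaDec2_eq [Fintype (GQ ⧸ C.L.fixingSubgroup)]
    (hind : 0 ≤ eulerDefect S (indRep C.L.fixingSubgroup ρ)) :
    FiniteDimensional (ZMod p) (shaDec2 S ρ C.A) ∧
      finrank (ZMod p) (shaDec2 S ρ C.A) = finrank (ZMod p) (shaDec1 S (C.dualRep ρ) C.A) := by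
  let π : (GQ ⧸ C.L.fixingSubgroup → M) →ₗ[ZMod p] M := indSum C.L.fixingSubgroup
  have hπ : ∀ g φ, π (indRep C.L.fixingSubgroup ρ g φ) = ρ g (π φ) :=
    isEquivariant_indSum C.L.fixingSubgroup ρ
  have hI := trivialOn_indRep C.L.fixingSubgroup hρ
  let σ : Representation (ZMod p) GQ (LinearMap.ker π) :=
    { toFun := fun g => (indRep C.L.fixingSubgroup ρ g).restrict fun φ hφ => by
        rw [LinearMap.mem_ker] at hφ ⊢
        rw [hπ, hφ, map_zero]
      map_one' := LinearMap.ext fun φ => Subtype.ext (by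
        rw [LinearMap.coe_restrict_apply, map_one, Module.End.one_apply, Module.End.one_apply])
      map_mul' := fun a b => LinearMap.ext fun φ => Subtype.ext (by
        rw [LinearMap.coe_restrict_apply, map_mul]
        rfl) }
  have hσ : TrivialOn C.L.fixingSubgroup σ := fun g hg φ => Subtype.ext (hI g hg φ.1)
  let Sq : SES σ (indRep C.L.fixingSubgroup ρ) ρ :=
    { incl := (LinearMap.ker π).subtype
      proj := π
      incl_equiv := fun g a => rfl
      proj_equiv := hπ
      injective := Submodule.injective_subtype _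
      surjective := indSum_surjective _
      exact := LinearMap.exact_iff.mpr (Submodule.range_subtype _).symm }
  obtain ⟨_, _, hBle⟩ := C.eulerDefect_le S hLS hpS hSS (indRep C.L.fixingSubgroup ρ) hI
  obtain ⟨_, _, -⟩ := C.eulerDefect_le S hLS hpS hSS σ hσ
  obtain ⟨_, _, hCle⟩ := C.eulerDefect_le S hLS hpS hSS ρ hρ
  have hA0 := C.eulerDefect_nonpos S hLS hpS hSS σ hσ
  obtain ⟨hfsha, hle⟩ := C.finrank_shaDec2_le ρ hρ S hLS hpS hSS
  have hsm : IsSmooth (sLevels S) (indRep C.L.fixingSubgroup ρ) :=
    hI.isSmooth C.L.fixingSubgroup ⟨_, ⟨C.L, hLS, rfl⟩, le_rfl⟩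
  have he := eulerChar_le_of_SES (L := sLevels S) Sq hsm
  have hc := finrank_ker_conj_add_one_of_SES C.hp Sq
  refine ⟨hfsha, le_antisymm hle ?_⟩
  simp only [eulerDefect] at hind hA0 hCle
  omega

end RatCtx

end

end FermatAgent.Duality
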