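import Fermat.Agent.Duality.Global.Interface
import Fermat.Agent.Duality.Global.SymbolImage
import Fermat.Agent.Duality.Global.SymbolLevel
import Fermat.Agent.Duality.Euler.FrobPlaces

/-!
# The cohomology of `G_{K,S}` with trivial coefficients for an arbitrary `S ∋ p`

When `K` has an `S`-unit which is no local `p`-th power over `S`, every family of local classes at
`S` of sum zero comes from `G_{K,S}`; and `H¹` is bounded through the divisor classes.
-/

set_option autoImplicit false

open scoped Pointwise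

namespace FermatAgent.Duality.Global

open IsDedekindDomain NumberField FermatAgent.Duality Module

noncomputable section

local notation "Qb" => AlgebraicClosure ℚ
local notation "GQ" => AlgebraicClosure ℚ ≃ₐ[ℚ] AlgebraicClosure ℚ

attribute [local instance] FermatAgent.RT.isGalois_algClosureRat numberField_of_finite

variable {p : ℕ} [Fact p.Prime] {K : IntermediateField ℚ Qb} [FiniteDimensional ℚ K]
  {S : Finset Nat.Primes}

/-- The places of a system lying over a subset of the primes. -/
def subSystem {S' : Finset Nat.Primes} (P' : PlaceSystem K S') (h : S ⊆ S') : PlaceSystem K S where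
  ι := {i : P'.ι // P'.prime i ∈ S}
  prime i := P'.prime i.1
  place i := P'.place i.1
  prime_mem i := i.2
  liesOver i := P'.liesOver i.1
  exhausts q hq A hA := by
    obtain ⟨i, hi, g, hg, e⟩ := P'.exhausts q (h hq) A hA
    exact ⟨⟨i, by rw [hi]; exact hq⟩, hi, g, hg, e⟩
  inj i j g hg e := Subtype.ext (P'.inj i.1 j.1 g hg e)

variable (hp2 : p ≠ 2) (hK : ContainsMuP p K) (hS : K.IsUnramifiedOutside S)
  (hpS : ExtCitation.pPrime p ∈ S) {e : Kˣ} (he : ∀ P : HeightOneSpectrum (𝓞 K), ord P e = 0)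
  (hloc : ∀ q ∈ S, ∀ A : ValuationSubring Qb, A.LiesOverPrime (q : ℕ) →
    locF1 A (kappa hK e) ≠ 0)

/-- The total localisation in degree `2`. -/
abbrev locPi2 (P : PlaceSystem K S) :
    globalH2 p K S →ₗ[ZMod p] ∀ i, localH2 p K (P.place i) :=
  LinearMap.pi fun i => loc2 p K S (P.place i)

include hpS hK hloc in
omit [FiniteDimensional ℚ K] in
lemma kappa_ne_zero_of_loc : kappa hK e ≠ 0 := by
  obtain ⟨A, hA⟩ := RT.exists_liesOverPrime (Fact.out : p.Prime)
  intro h
  exact hloc _ hpS A hA (by rw [h, map_zero])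

include hp2 hK hS hpS he hloc in
set_option maxHeartbeats 1600000 in
/-- A class of a larger set which vanishes at the new places comes from `G_{K,S}`. -/
theorem exists_infl2_eq_of_vanish {S' : Finset Nat.Primes} (x : fullH2 p K)
    (hx : ∀ q : Nat.Primes, q ∉ S → q ∈ S' → ∀ A : ValuationSubring Qb,
      A.LiesOverPrime (q : ℕ) → locF2 A x = 0)
    (hx' : ∀ q : Nat.Primes, q ∉ S' → ∀ A : ValuationSubring Qb,
      A.LiesOverPrime (q : ℕ) → locF2 A x = 0) :
    ∃ x₀ : globalH2 p K S, infl2 x₀ = x := by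
  classical
  obtain ⟨T, hT⟩ := exists_primesOver K S
  choose pl hpl using exists_place (K := K)
  have hpT : ∀ v : HeightOneSpectrum (𝓞 K), (p : 𝓞 K) ∈ v.asIdeal → v ∈ T :=
    fun v hv => (hT v).2 ⟨_, hpS, hv⟩
  have he0 := kappa_ne_zero_of_loc hK hpS hloc
  have hout : ∀ v, (locF1 (pl v) (kappa hK e) = 0 ∨ v ∉ T) → locF2 (pl v) x = 0 := by
    intro v hv
    obtain ⟨l, hl, hlA⟩ := (hpl v).1
    have hlS : (⟨l, hl⟩ : Nat.Primes) ∉ S := fun hlS =>
      hv.elim (hloc _ hlS _ hlA) fun h => h ((hT v).2 ⟨_, hlS, (hpl v).natCast_mem hlA⟩)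
    by_cases hlS' : (⟨l, hl⟩ : Nat.Primes) ∈ S'
    · exact hx _ hlS hlS' _ hlA
    · exact hx' _ hlS' _ hlA
  obtain ⟨b, hb⟩ := exists_eq_gsym hK pl hpl (Or.inl hp2) he0 x
    fun v hv => hout v (Or.inl hv)
  obtain ⟨x₀, hx₀⟩ := exists_infl2_eq_gsym hK hS hpS hT (fun v _ => he v) pl hpl he0
    (b := b) fun v hv hns => dvd_ord_of_sym_eq_zero hK pl hpl hpT (fun w _ => he w) hv hns (by
      rw [← locF2_gsym, ← hb]
      exact hout v (Or.inr hv))
  exact ⟨x₀, hx₀.trans hb.symm⟩

include hp2 hK hS hpS he hloc in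
/-- A class of a larger set which vanishes off `S` has the localisations of a class of `G_{K,S}`. -/
theorem exists_loc2_eq {S' : Finset Nat.Primes} (hSS' : S ⊆ S') (P' : PlaceSystem K S')
    (x' : globalH2 p K S') (hoff : ∀ i, P'.prime i ∉ S → loc2 p K S' (P'.place i) x' = 0) :
    ∃ x₀ : globalH2 p K S, ∀ A : ValuationSubring Qb, loc2 p K S A x₀ = loc2 p K S' A x' := by
  obtain ⟨x₀, hx₀⟩ := exists_infl2_eq_of_vanish (S' := S') hp2 hK hS hpS he hloc (infl2 x')
    (fun q hq hq' A hA => by
      obtain ⟨i, hi, g, hg, rfl⟩ := P'.exhausts q hq' A hA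
      refine locF2_smul_eq_zero hg ?_
      rw [locF2_infl2]
      exact hoff i (by rw [hi]; exact hq))
    fun q hq A hA => by
      rw [locF2_infl2]
      exact loc2_eq_zero_of_unramified (hS.mono hSS') hq hA x'
  exact ⟨x₀, fun A => by rw [← locF2_infl2, hx₀, locF2_infl2]⟩

/-- Counting through coordinates whose range contains the vectors of sum zero. -/
lemma finrank_add_card_le {ι : Type} [Fintype ι] {G : Type} [AddCommGroup G] [Module (ZMod p) G]
    (f : G →ₗ[ZMod p] ι → ZMod p) [Finite (LinearMap.ker f)]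
    (h : ∀ w : ι → ZMod p, ∑ i, w i = 0 → w ∈ LinearMap.range f) :
    Module.Finite (ZMod p) G ∧
      finrank (ZMod p) (LinearMap.ker f) + Fintype.card ι ≤ finrank (ZMod p) G + 1 := by
  have : Module.Finite (ZMod p) (LinearMap.ker f) := Module.Finite.of_finite
  have : FiniteDimensional (ZMod p) (G ⧸ LinearMap.ker f) :=
    Module.Finite.equiv f.quotKerEquivRange.symm
  have hG : Module.Finite (ZMod p) G := Module.Finite.of_submodule_quotient (LinearMap.ker f)
  refine ⟨hG, ?_⟩
  let ψ : (ι → ZMod p) →ₗ[ZMod p] ZMod p := ∑ i, LinearMap.proj i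
  have hle : LinearMap.ker ψ ≤ LinearMap.range f := fun w hw => h w (by
    rw [LinearMap.mem_ker] at hw
    simpa [ψ, LinearMap.sum_apply] using hw)
  have h1 := LinearMap.finrank_range_add_finrank_ker f
  have h2 := LinearMap.finrank_range_add_finrank_ker ψ
  have h3 := Submodule.finrank_le (LinearMap.range ψ)
  rw [finrank_self] at h3
  have h4 := Submodule.finrank_mono hle
  rw [Module.finrank_pi] at h2
  omega

include hp2 hK hS hpS in
/-- The coordinates of the localisations have finite kernel `Ш²`. -/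
lemma ker_coord (P : PlaceSystem K S) (inv : LocalFunctionals (p := p) P) (hinv : ∀ i, inv i ≠ 0) :
    LinearMap.ker (LinearMap.pi fun i => inv i ∘ₗ loc2 p K S (P.place i)) =
      LinearMap.ker (locPi2 (p := p) P) := by
  have _ := hp2
  have _ := hS
  have _ := hpS
  ext x
  rw [LinearMap.mem_ker, LinearMap.mem_ker, funext_iff, funext_iff]
  refine forall_congr' fun i => ⟨fun h => ?_, fun h => ?_⟩
  · change inv i (loc2 p K S (P.place i) x) = 0 at h
    show loc2 p K S (P.place i) x = 0
    by_contra hne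
    refine hinv i (LinearMap.ext fun y => ?_)
    obtain ⟨c, rfl⟩ := exists_smul_eq_of_finrank_eq_one
      (localDualityAt p (P.prime i).2 K hK (P.liesOver i)).finrank_H2 hne y
    rw [map_smul, h, smul_zero, LinearMap.zero_apply]
  · show inv i (loc2 p K S (P.place i) x) = 0
    rw [show loc2 p K S (P.place i) x = 0 from h, map_zero]

include hp2 hK hS hpS he hloc in
set_option maxHeartbeats 800000 in
/-- `H²` fills at least a hyperplane of the local classes. -/
theorem exists_system_globalH2_ge :
    ∃ P : PlaceSystem K S, Module.Finite (ZMod p) (globalH2 p K S) ∧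
      finrank (ZMod p) (LinearMap.ker (locPi2 (p := p) P)) + Fintype.card P.ι ≤
        finrank (ZMod p) (globalH2 p K S) + 1 := by
  classical
  obtain ⟨S', hSS', hbig⟩ := exists_classGroupGenerated_of_primes p K S
  obtain ⟨P'⟩ := Euler.nonempty_placeSystem K S'
  obtain ⟨inv, hne, -, -, himg, -⟩ :=
    exists_globalDuality p K S' hp2 hK (hS.mono hSS') (hSS' hpS) hbig P'
  let P := subSystem P' hSS'
  let inv₀ : LocalFunctionals (p := p) P := fun i => inv i.1
  have hker := ker_coord hp2 hK hS hpS P inv₀ fun i => hne i.1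
  have : Finite (LinearMap.ker (LinearMap.pi fun i => inv₀ i ∘ₗ loc2 p K S (P.place i))) := by
    rw [hker]
    exact finite_sha2 hp2 hK hS hpS P
  obtain ⟨hG, hle⟩ := finrank_add_card_le
    (LinearMap.pi fun i => inv₀ i ∘ₗ loc2 p K S (P.place i)) fun w hw => by
      have hone : ∀ i, ∃ y, inv i y = 1 := fun i =>
        LinearMap.surjective (hne i) 1
      choose y hy using hone
      let c : P'.ι → ZMod p := fun i => if h : P'.prime i ∈ S then w ⟨i, h⟩ else 0
      obtain ⟨x', hx'⟩ := (himg fun i => c i • y i).1 (by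
        simp only [map_smul, hy, smul_eq_mul, mul_one]
        refine Eq.trans ?_ hw
        rw [← Finset.sum_filter_add_sum_filter_not Finset.univ (fun i => P'.prime i ∈ S),
          Finset.sum_eq_zero (s := Finset.univ.filter fun i => ¬ P'.prime i ∈ S) fun i hi =>
            dif_neg (Finset.mem_filter.mp hi).2,
          add_zero, Finset.sum_subtype (Finset.univ.filter fun i => P'.prime i ∈ S)
            (p := fun i => P'.prime i ∈ S) (by simp) c]
        exact Finset.sum_congr rfl fun i _ => dif_pos i.2)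
      obtain ⟨x₀, hx₀⟩ := exists_loc2_eq hp2 hK hS hpS he hloc hSS' P' x' fun i hi => by
        rw [hx', show c i = 0 from dif_neg hi, zero_smul]
      refine ⟨x₀, funext fun i => ?_⟩
      show inv i.1 (loc2 p K S (P'.place i.1) x₀) = w i
      rw [hx₀, hx', map_smul, hy, smul_eq_mul, mul_one]
      exact dif_pos i.2
  refine ⟨P, hG, ?_⟩
  rw [hker] at hle
  exact hle

include hp2 hK hS hpS in
set_option maxHeartbeats 800000 in
/-- `H¹` is bounded by the units, the places and `Ш²`. -/
theorem finrank_globalH1_le (P : PlaceSystem K S) :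
    Module.Finite (ZMod p) (globalH1 p K S) ∧
      finrank (ZMod p) (globalH1 p K S) ≤
        finrank (ZMod p) (LinearMap.ker (locPi2 (p := p) P)) +
          (Units.rank K + Fintype.card P.ι + 1) := by
  classical
  obtain ⟨T, hT⟩ := exists_primesOver K S
  let D : Submodule (ZMod p) (fullH1 p K) :=
    LinearMap.range (toFull1 : globalH1 p K S →ₗ[ZMod p] fullH1 p K)
  have hD : ∀ c ∈ D, ∃ x : Kˣ, kappa hK x = c ∧ ∀ v ∉ T, (p : ℤ) ∣ ord v x := by
    rintro _ ⟨y, rfl⟩
    obtain ⟨a, ha⟩ := kappa_surjective hK (toFull1 y)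
    refine ⟨a, ha, fun v hv => ?_⟩
    obtain ⟨A, hA⟩ := exists_place v
    obtain ⟨l, hl, hlA⟩ := hA.1
    have hlS : (⟨l, hl⟩ : Nat.Primes) ∉ S := fun h => hv ((hT v).2 ⟨_, h, hA.natCast_mem hlA⟩)
    refine dvd_ord_of_unramified hK hA hl hlA (fun h => hlS ?_) ?_
    · rwa [show (⟨l, hl⟩ : Nat.Primes) = ExtCitation.pPrime p from Subtype.ext h]
    · rw [ha]
      exact toFull1_unramified y hlS hlA
  obtain ⟨hDfin, hcard⟩ := natCard_le_of_dvd_ord hK D hD
  have hG : Module.Finite (ZMod p) (globalH1 p K S) := finite_globalH1 p K S hK hS hpS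
  refine ⟨hG, ?_⟩
  have := finite_sha2 hp2 hK hS hpS P
  have hTcard : T.card ≤ Fintype.card P.ι := by
    choose pl hpl using exists_place (K := K)
    have hex : ∀ v : T, ∃ i, ∃ g ∈ K.fixingSubgroup, pl v.1 = g • P.place i := fun v => by
      obtain ⟨q, hq, hqv⟩ := (hT v.1).1 v.2
      obtain ⟨l, hl, hlA⟩ := (hpl v.1).1
      have hql : (pl v.1).LiesOverPrime (q : ℕ) := by
        rw [eq_of_natCast_mem (hpl v.1) hl hlA q.2 hqv]; exact hlA
      obtain ⟨i, -, g, hg, e⟩ := P.exhausts q hq _ hql
      exact ⟨i, g, hg, e⟩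
    choose ι' g hg hι using hex
    rw [← Fintype.card_coe]
    refine Fintype.card_le_of_injective ι' fun v w h => Subtype.ext ?_
    have hv : Over K (pl w.1) v.1 := by
      have e1 : pl w.1 = (g w * (g v)⁻¹) • pl v.1 := by
        rw [hι w, hι v, ← h, smul_smul, inv_mul_cancel_right]
      rw [e1]
      exact (hpl v.1).smul (mul_mem (hg w) (inv_mem (hg v)))
    exact hv.eq (hpl w.1)
  have hp1 := (Fact.out : p.Prime).one_lt
  have he : ∀ (V : Type) [AddCommGroup V] [Module (ZMod p) V] [Finite V],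
      p ^ finrank (ZMod p) V = Nat.card V := fun V _ _ _ => by
    rw [Module.natCard_eq_pow_finrank (K := ZMod p), Nat.card_zmod]
  have h : p ^ finrank (ZMod p) D ≤ p ^ (finrank (ZMod p) (LinearMap.ker (locPi2 (p := p) P)) +
      (Units.rank K + T.card + 1)) := by
    rw [pow_add, he, he]
    exact hcard.trans (Nat.mul_le_mul_right _ (index_le_natCard_sha2 hp2 hK hS hpS P hT))
  rw [Nat.pow_le_pow_iff_right hp1,
    LinearMap.finrank_range_of_inj toFull1_injective] at h
  omega

end

end FermatAgent.Duality.Global
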