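import Fermat.Agent.Duality.Small.Devissage

/-!
# The Euler characteristic of `G_{ℚ,S}` on induced modules

By Shapiro it is `dim M` times that of `G_{L,S}` on `𝔽_p`; complex conjugation exchanges the cosets
of `G_L` in pairs, so its `-1`-eigenspace is half of the induced module.
-/

set_option autoImplicit false

namespace FermatAgent.Duality

open Module

noncomputable section

local notation "Qb" => AlgebraicClosure ℚ
local notation "GQ" => AlgebraicClosure ℚ ≃ₐ[ℚ] AlgebraicClosure ℚ

attribute [local instance] FermatAgent.RT.isGalois_algClosureRat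

variable {p : ℕ} [Fact p.Prime]

/-- The `-1`-eigenspace of an involution anticommuting with another one is half of the space. -/
lemma two_mul_finrank_ker_add_one {V : Type} [AddCommGroup V] [Module (ZMod p) V]
    [FiniteDimensional (ZMod p) V] (h2 : (2 : ZMod p) ≠ 0) (a s : V →ₗ[ZMod p] V)
    (ha : ∀ v, a (a v) = v) (hs : ∀ v, s (s v) = v) (has : ∀ v, a (s v) = -s (a v)) :
    2 * finrank (ZMod p) (LinearMap.ker (a + 1)) = finrank (ZMod p) V := by
  have hmem : ∀ v, v ∈ LinearMap.ker (a + 1) ↔ a v = -v := fun v => by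
    rw [LinearMap.mem_ker, LinearMap.add_apply, Module.End.one_apply, add_eq_zero_iff_eq_neg]
  have hmem' : ∀ v, v ∈ LinearMap.ker (a - 1) ↔ a v = v := fun v => by
    rw [LinearMap.mem_ker, LinearMap.sub_apply, Module.End.one_apply, sub_eq_zero]
  let e : LinearMap.ker (a + 1) ≃ₗ[ZMod p] LinearMap.ker (a - 1) :=
    LinearEquiv.ofLinearMap
      (s.restrict fun v hv => by rw [hmem] at hv; rw [hmem', has, hv, map_neg, neg_neg])
      (s.restrict fun v hv => by rw [hmem'] at hv; rw [hmem, has, hv])
      (LinearMap.ext fun v => Subtype.ext (hs v.1)) (LinearMap.ext fun v => Subtype.ext (hs v.1))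
  have hc : IsCompl (LinearMap.ker (a + 1)) (LinearMap.ker (a - 1)) := by
    refine ⟨Submodule.disjoint_def.mpr fun v hv hv' => ?_, codisjoint_iff.mpr
      (eq_top_iff.mpr fun v _ => ?_)⟩
    · rw [hmem] at hv
      rw [hmem', hv] at hv'
      have : (2 : ZMod p) • v = 0 := by
        rw [two_smul]
        exact add_eq_zero_iff_eq_neg.mpr hv'.symm
      exact (smul_eq_zero.mp this).resolve_left h2
    · refine Submodule.mem_sup.mpr ⟨(2 : ZMod p)⁻¹ • (v - a v), ?_, (2 : ZMod p)⁻¹ • (v + a v), ?_, ?_⟩
      · rw [hmem, map_smul, map_sub, ha, ← smul_neg, neg_sub]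
      · rw [hmem', map_smul, map_add, ha, add_comm]
      · rw [← smul_add, sub_add_add_cancel, ← two_smul (ZMod p) v, smul_smul, inv_mul_cancel₀ h2,
          one_smul]
  have h := Submodule.finrank_add_eq_of_isCompl hc
  rw [← e.finrank_eq] at h
  omega

namespace RatCtx

variable (C : RatCtx p) {M : Type} [AddCommGroup M] [Module (ZMod p) M]
  [FiniteDimensional (ZMod p) M] (ρ : Representation (ZMod p) GQ M)

include C in
/-- Complex conjugation moves every coset of `G_L`. -/
lemma conj_smul_ne (x : GQ ⧸ C.L.fixingSubgroup) : complexConjugation • x ≠ x := by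
  intro h
  obtain ⟨g, rfl⟩ := QuotientGroup.mk_surjective x
  rw [MulAction.Quotient.smul_mk, smul_eq_mul, QuotientGroup.eq] at h
  have h' := C.hL _ ((inferInstance : C.L.fixingSubgroup.Normal).conj_mem _ h g)
  rw [show g * ((complexConjugation * g)⁻¹ * g) * g⁻¹ = complexConjugation⁻¹ by group, map_inv,
    inv_eq_one] at h'
  have h1 := C.cycloChar_conj
  rw [h', Units.val_one] at h1
  exact two_ne_zero_of_ne_two C.hp (by linear_combination h1)

include C in
/-- The `-1`-eigenspace of complex conjugation on an induced module. -/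
lemma two_mul_finrank_ker_conj_ind [Fintype (GQ ⧸ C.L.fixingSubgroup)] :
    2 * finrank (ZMod p)
        (LinearMap.ker (indRep C.L.fixingSubgroup ρ complexConjugation + 1)) =
      Fintype.card (GQ ⧸ C.L.fixingSubgroup) * finrank (ZMod p) M := by
  classical
  let Q := GQ ⧸ C.L.fixingSubgroup
  let e := Fintype.equivFin Q
  let sg : Q → ZMod p := fun x => if e x < e (complexConjugation • x) then 1 else -1
  have hcc : ∀ x : Q, complexConjugation • complexConjugation • x = x := fun x => by
    rw [smul_smul, complexConjugation_mul_self, one_smul]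
  have hsq : ∀ x, sg x * sg x = 1 := fun x => by
    simp only [sg]
    split_ifs <;> simp
  have hanti : ∀ x, sg (complexConjugation • x) = -sg x := fun x => by
    simp only [sg, hcc]
    rcases lt_or_gt_of_ne (fun h => C.conj_smul_ne x (e.injective h).symm) with h | h
    · rw [if_pos h, if_neg h.asymm]
    · rw [if_neg h.asymm, if_pos h, neg_neg]
  let s : (Q → M) →ₗ[ZMod p] (Q → M) :=
    LinearMap.pi fun x => sg x • LinearMap.proj x
  have hinv : (complexConjugation : GQ)⁻¹ = complexConjugation :=
    inv_eq_of_mul_eq_one_right complexConjugation_mul_self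
  have h := two_mul_finrank_ker_add_one (two_ne_zero_of_ne_two C.hp)
    (indRep C.L.fixingSubgroup ρ complexConjugation) s
    (fun φ => by rw [← Module.End.mul_apply, ← map_mul, complexConjugation_mul_self, map_one,
      Module.End.one_apply])
    (fun φ => funext fun x => by
      show sg x • sg x • φ x = φ x
      rw [smul_smul, hsq, one_smul])
    (fun φ => funext fun x => by
      show ρ complexConjugation (sg (complexConjugation⁻¹ • x) • φ (complexConjugation⁻¹ • x)) =
        -(sg x • ρ complexConjugation (φ (complexConjugation⁻¹ • x)))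
      rw [hinv, hanti, map_smul, neg_smul])
  rw [h, Module.finrank_pi_fintype, Finset.sum_const, Finset.card_univ, smul_eq_mul]

variable (S : Finset Nat.Primes) (hLS : C.L.IsUnramifiedOutside S)
  (hρ : TrivialOn C.L.fixingSubgroup ρ)

include hLS hρ in
/-- The defect of the induced module is non-negative, given the bound over `L`. -/
theorem eulerDefect_ind_nonneg [Fintype (GQ ⧸ C.L.fixingSubgroup)]
    [FiniteDimensional (ZMod p) (globalH1 p C.L S)]
    [FiniteDimensional (ZMod p) (globalH2 p C.L S)]
    (hbound : 2 * finrank (ZMod p) (globalH1 p C.L S) ≤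
      2 + 2 * finrank (ZMod p) (globalH2 p C.L S) +
        Fintype.card (GQ ⧸ C.L.fixingSubgroup)) :
    0 ≤ eulerDefect S (indRep C.L.fixingSubgroup ρ) := by
  have hU : ∃ V ∈ (sLevels S).lev, V ≤ C.L.fixingSubgroup := ⟨_, ⟨C.L, hLS, rfl⟩, le_rfl⟩
  have hlev : ∃ V ∈ ((sLevels S).comap C.L.fixingSubgroup.subtype).lev,
      V ≤ (⊤ : Subgroup C.L.fixingSubgroup) := by
    obtain ⟨V, hV, -⟩ := hU
    exact ⟨_, ⟨V, hV, rfl⟩, le_top⟩
  have hp1 : IsPGroup p (C.L.fixingSubgroup ⧸ (⊤ : Subgroup C.L.fixingSubgroup)) := fun c => by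
    obtain ⟨x, rfl⟩ := QuotientGroup.mk_surjective c
    exact ⟨0, (QuotientGroup.eq_one_iff _).mpr (Subgroup.mem_top _)⟩
  set h1 := finrank (ZMod p) (globalH1 p C.L S)
  set h2 := finrank (ZMod p) (globalH2 p C.L S)
  have hbase : EulerLaw ((sLevels S).comap C.L.fixingSubgroup.subtype)
      (-(1 - (h1 : ℤ) + h2)) (triv (ZMod p) C.L.fixingSubgroup) := by
    refine ⟨‹_›, ‹_›, ?_⟩
    rw [show (triv (ZMod p) C.L.fixingSubgroup).invariants = ⊤ from
      eq_top_iff.mpr fun x _ g => rfl, finrank_top, finrank_self]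
    simp [h1, h2]
  obtain ⟨-, -, he⟩ := eulerLaw_pGroup (ρ := ρ.comp C.L.fixingSubgroup.subtype)
    (⊤ : Subgroup C.L.fixingSubgroup) hp1 hlev (rightExact2_of_top _ _ rfl) hbase
    fun g _ m => hρ _ g.2 m
  have hk := C.two_mul_finrank_ker_conj_ind ρ
  rw [eulerDefect, eulerChar_indRep _ hU, eulerChar, he]
  zify at hbound hk
  nlinarith [mul_nonneg (sub_nonneg.2 hbound) (Nat.cast_nonneg (α := ℤ) (finrank (ZMod p) M))]

end RatCtx

end

end FermatAgent.Duality
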