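import Fermat.Agent.Duality.Global.Unramified
import Fermat.Agent.Duality.Instance.UnrPerp
import Fermat.Agent.Duality.Bridge.Sha

/-!
# Cocycles of a decomposition group which only depend on the power of Frobenius

Such a `2`-cocycle is a coboundary, with values in any module killed by `p`. So classes of `G_{ℚ,S}`
of degree two vanish outside `S`, and unramified classes of degree one are orthogonal.
-/

set_option autoImplicit false

open scoped Pointwise

namespace FermatAgent.Duality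

open Module

noncomputable section

local notation "Qb" => AlgebraicClosure ℚ
local notation "GQ" => AlgebraicClosure ℚ ≃ₐ[ℚ] AlgebraicClosure ℚ

attribute [local instance] FermatAgent.RT.isGalois_algClosureRat

/-- The power of Frobenius as a function on the decomposition group, modulo a given period and
modulo a subgroup containing inertia and a level. -/
theorem exists_degree {ℓ : ℕ} (hℓ : ℓ.Prime) {A : ValuationSubring Qb} (hA : A.LiesOverPrime ℓ)
    {F : GQ} (hF : A.IsFrobeniusAt F ℓ) (F' : A.decompositionSubgroup ℚ) (hF' : (F' : GQ) = F)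
    (H : Subgroup (A.decompositionSubgroup ℚ)) (hIH : decInertia A ≤ H)
    (N : IntermediateField ℚ Qb) [FiniteDimensional ℚ N] (hNH : decSub N A ≤ H)
    {P : ℕ} (hP : 0 < P) :
    ∃ (e : A.decompositionSubgroup ℚ → ℕ) (L' : IntermediateField ℚ Qb),
      FiniteDimensional ℚ L' ∧ (∀ σ, (F' ^ e σ)⁻¹ * σ ∈ H) ∧
      (∀ σ τ, e (σ * τ) ≡ e σ + e τ [MOD P]) ∧ (∀ σ, ∀ s ∈ decSub L' A, e (σ * s) ≡ e σ [MOD P]) ∧
      ∀ i ∈ decInertia A, e i ≡ 0 [MOD P] := by
  classical
  -- an unramified root of unity moved with period `P` by Frobenius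
  set M := ℓ ^ P - 1
  have hq1 : 1 ≤ ℓ ^ P := Nat.one_le_pow _ _ hℓ.pos
  have hM0 : M ≠ 0 := (Nat.sub_pos_of_lt (Nat.one_lt_pow hP.ne' hℓ.one_lt)).ne'
  have hqM : ¬ ℓ ∣ M := fun h => hℓ.ne_one (Nat.dvd_one.1
    ((Nat.dvd_add_right h).1 (by rw [Nat.sub_add_cancel hq1]; exact dvd_pow_self _ hP.ne')))
  have : NeZero M := ⟨hM0⟩
  have : NeZero (M : Qb) := ⟨Nat.cast_ne_zero.2 hM0⟩
  obtain ⟨ζ, hζ⟩ := HasEnoughRootsOfUnity.exists_primitiveRoot Qb M
  have hζv : A.valuation ζ ≤ 1 := (Global.val_eq_one_of_pow_eq_one hM0 hζ.pow_eq_one).le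
  have hFζ : F ζ = ζ ^ ℓ := Global.eq_of_val_sub_lt hℓ hA hqM hM0
    (by rw [← map_pow, hζ.pow_eq_one, map_one])
    (by rw [← pow_mul, mul_comm, pow_mul, hζ.pow_eq_one, one_pow])
    ((TW.isFrobeniusAt_iff.1 hF).2 ζ ((A.valuation_le_one_iff ζ).1 hζv))
  have hFpow : ∀ m : ℕ, (F ^ m) ζ = ζ ^ (ℓ ^ m) := fun m => by
    induction m with
    | zero => simp
    | succ m ih => rw [pow_succ' F, AlgEquiv.mul_apply, ih, map_pow, hFζ, ← pow_mul, pow_succ']
  have hIζ : ∀ i ∈ A.inertiaSubgroupIn ℚ, i ζ = ζ := fun i hi =>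
    Global.eq_of_val_sub_lt hℓ hA hqM hM0 (by rw [← map_pow, hζ.pow_eq_one, map_one])
      hζ.pow_eq_one
      (FermatAgent.Local.inertia_val_sub_lt_one hi ((A.valuation_le_one_iff ζ).1 hζv))
  have hinj : ∀ a b : ℕ, ζ ^ (ℓ ^ a) = ζ ^ (ℓ ^ b) → a ≡ b [MOD P] := by
    intro a b hab
    wlog hle : a ≤ b generalizing a b
    · exact (this b a hab.symm (le_of_not_ge hle)).symm
    obtain ⟨d, rfl⟩ := Nat.exists_eq_add_of_le hle
    have h1 : M ∣ ℓ ^ a * (ℓ ^ d - 1) := by
      rw [Nat.mul_sub, mul_one, ← pow_add, ← Nat.modEq_iff_dvd' (Nat.pow_le_pow_right hℓ.pos hle)]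
      rw [(hζ.isOfFinOrder hM0).pow_eq_pow_iff_modEq, ← hζ.eq_orderOf] at hab
      exact hab
    have h3 : M ∣ ℓ ^ d - 1 :=
      (((hℓ.coprime_iff_not_dvd.2 hqM).pow_left a).symm).dvd_of_dvd_mul_left h1
    have h4 := Nat.pow_sub_one_gcd_pow_sub_one ℓ P d
    rw [Nat.gcd_eq_left h3] at h4
    have h5 : P = P.gcd d := by
      refine Nat.pow_right_injective hℓ.two_le ?_
      have := Nat.one_le_pow (P.gcd d) _ hℓ.pos
      simp only
      omega
    have h6 : P ∣ d := h5 ▸ Nat.gcd_dvd_right P d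
    exact (Nat.modEq_iff_dvd' (Nat.le_add_right a d)).2 (by simpa using h6)
  let K : IntermediateField ℚ Qb := N ⊔ IntermediateField.adjoin ℚ ({ζ} : Set Qb)
  have : FiniteDimensional ℚ (IntermediateField.adjoin ℚ ({ζ} : Set Qb)) :=
    IntermediateField.adjoin.finiteDimensional (Algebra.IsIntegral.isIntegral ζ)
  have : FiniteDimensional ℚ K := IntermediateField.finiteDimensional_sup _ _
  let L' := IntermediateField.normalClosure ℚ K Qb
  have : FiniteDimensional ℚ L' := normalClosure.is_finiteDimensional ℚ _ Qb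
  have : IsGalois ℚ L' := IsGalois.normalClosure ℚ _ Qb
  have hNL : N ≤ L' := le_sup_left.trans (IntermediateField.le_normalClosure K)
  have hζL : ζ ∈ L' := (IntermediateField.le_normalClosure K)
    ((le_sup_right : _ ≤ K) (IntermediateField.mem_adjoin_simple_self ℚ ζ))
  have hexp : ∀ σ : A.decompositionSubgroup ℚ, ∃ a : ℕ, (σ : GQ) ζ = ζ ^ (ℓ ^ a) ∧
      (F' ^ a)⁻¹ * σ ∈ H := by
    intro σ
    obtain ⟨m, i, hi, hm⟩ := TW.exists_frobenius_pow_mul hℓ hA L' hF σ.2
    refine ⟨m, by rw [hm ζ hζL, AlgEquiv.mul_apply, hIζ i hi, hFpow], ?_⟩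
    let i' : A.decompositionSubgroup ℚ := ⟨i, FermatAgent.Local.mem_decomposition_of_inertia hi⟩
    have h1 : (F' ^ m * i')⁻¹ * σ ∈ decSub N A := by
      refine Subgroup.mem_subgroupOf.mpr ((IntermediateField.mem_fixingSubgroup_iff _ _).mpr
        fun y hy => ?_)
      show ((F' ^ m * i' : A.decompositionSubgroup ℚ) : GQ)⁻¹ ((σ : GQ) y) = y
      rw [hm y (hNL hy), Subgroup.coe_mul, SubgroupClass.coe_pow, hF', ← AlgEquiv.mul_apply,
        inv_mul_cancel, AlgEquiv.one_apply]
    have h2 := H.mul_mem (hIH (show i' ∈ decInertia A from hi)) (hNH h1)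
    rwa [mul_inv_rev, ← mul_assoc, ← mul_assoc, mul_inv_cancel, one_mul] at h2
  choose e he heH using hexp
  refine ⟨e, L', inferInstance, heH, fun σ τ => hinj _ _ ?_, fun σ s hs => hinj _ _ ?_,
    fun i hi => hinj _ _ ?_⟩
  · rw [← he, Subgroup.coe_mul, AlgEquiv.mul_apply, he τ, map_pow, he σ, ← pow_mul, ← pow_add]
  · rw [← he, ← he, Subgroup.coe_mul, AlgEquiv.mul_apply,
      show (s : GQ) ζ = ζ from hs ⟨ζ, hζL⟩]
  · rw [← he, hIζ (i : GQ) hi, pow_zero, pow_one]

variable {p : ℕ} [Fact p.Prime] {A : ValuationSubring Qb} {M : Type} [AddCommGroup M]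
  [Module (ZMod p) M] (σ : Representation (ZMod p) (A.decompositionSubgroup ℚ) M)

/-- A `2`-cocycle which only depends on the power of Frobenius is a coboundary; the cochain is
`c (1, 1)` on inertia. -/
theorem exists_primitive {ℓ : ℕ} (hℓ : ℓ.Prime) (hA : A.LiesOverPrime ℓ)
    (N : IntermediateField ℚ Qb) [FiniteDimensional ℚ N]
    (H : Subgroup (A.decompositionSubgroup ℚ)) (hIH : decInertia A ≤ H) (hNH : decSub N A ≤ H)
    (hσ : TrivialOn H σ)
    (c : A.decompositionSubgroup ℚ × A.decompositionSubgroup ℚ → M)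
    (hcoc : ∀ g h j, c (g * h, j) + c (g, h) = σ g (c (h, j)) + c (g, h * j))
    (hinv : ∀ g g', ∀ u ∈ H, ∀ v ∈ H, c (g * u, g' * v) = c (g, g')) :
    ∃ z, IsLev₁ (decLevels A) z ∧ dd₁ σ z = c ∧ ∀ i ∈ decInertia A, z i = c (1, 1) := by
  classical
  have := finiteIndex_fixingSubgroup N
  have : (decSub N A).FiniteIndex := inferInstance
  have hHfi : H.FiniteIndex := Subgroup.finiteIndex_of_le hNH
  obtain ⟨F, hF⟩ := RT.exists_isFrobeniusAt hℓ hA
  let F' : A.decompositionSubgroup ℚ := ⟨F, (TW.isFrobeniusAt_iff.1 hF).1⟩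
  obtain ⟨n, hn0, -, hn⟩ :=
    Subgroup.exists_pow_mem_of_index_ne_zero (H := H) hHfi.index_ne_zero F'
  have hp := (Fact.out : p.Prime)
  obtain ⟨e, L', hL', heH, headd, helev, heI⟩ := exists_degree hℓ hA hF F' rfl H hIH N hNH
    (P := p * n) (Nat.mul_pos hp.pos hn0)
  let C : ℕ → ℕ → M := fun i j => c (F' ^ i, F' ^ j)
  let ρ : ℕ → Module.End (ZMod p) M := fun i => σ (F' ^ i)
  have hC : ∀ i j k, C (i + j) k + C i j = ρ i (C j k) + C i (j + k) := fun i j k => by
    simp only [C, ρ, pow_add]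
    exact hcoc _ _ _
  have hρadd : ∀ i j m, ρ (i + j) m = ρ i (ρ j m) := fun i j m => by
    simp only [ρ, pow_add, map_mul, Module.End.mul_apply]
  have hC0 : ∀ i, C i 0 = ρ i (C 0 0) := fun i => by
    have h := hC i 0 0
    simp only [add_zero] at h
    exact add_right_cancel h
  have hCn : ∀ i, C i n = ρ i (C 0 0) := fun i => by
    have h := hinv (F' ^ i) 1 1 (one_mem _) (F' ^ n) hn
    rw [mul_one, one_mul] at h
    rw [← hC0 i]
    simp only [C, pow_zero]
    exact h
  let y : ℕ → M := fun i => Nat.rec (C 0 0) (fun i acc => acc - C i 1) i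
  have hy0 : y 0 = C 0 0 := rfl
  have hy1 : ∀ i, y (i + 1) = y i - C i 1 := fun i => rfl
  have hyadd : ∀ i j, y (i + j) = ρ i (y j) + y i - C i j := by
    intro i j
    induction j with
    | zero => rw [add_zero, hy0, hC0 i]; abel
    | succ j ih =>
      rw [← add_assoc, hy1, ih, hy1, map_sub]
      have h : C (i + j) 1 = ρ i (C j 1) + C i (j + 1) - C i j := eq_sub_of_add_eq (hC i j 1)
      rw [h]
      abel
  have hρn : ∀ i m, ρ (i + n) m = ρ i m := fun i m => by
    rw [hρadd]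
    exact congrArg _ (hσ _ hn m)
  have hρk : ∀ i k m, ρ (i + k * n) m = ρ i m := fun i k m => by
    induction k with
    | zero => rw [zero_mul, add_zero]
    | succ k ih => rw [Nat.succ_mul, ← add_assoc, hρn, ih]
  have hyk : ∀ k i, y (i + k * n) = y i + k • ρ i (y n - C 0 0) := by
    intro k
    induction k with
    | zero => intro i; simp
    | succ k ih =>
      intro i
      rw [Nat.succ_mul, ← add_assoc, hyadd, hCn, ih, succ_nsmul, hρk, hρk, map_sub, smul_sub]
      abel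
  have hper : ∀ a, y (a % (p * n)) = y a := fun a => by
    conv_rhs => rw [← Nat.mod_add_div a (p * n),
      show p * n * (a / (p * n)) = p * (a / (p * n)) * n by ring, hyk,
      ← Nat.cast_smul_eq_nsmul (ZMod p), Nat.cast_mul, ZMod.natCast_self, zero_mul, zero_smul,
      add_zero]
  have hcongr : ∀ {a b : ℕ}, a ≡ b [MOD p * n] → y a = y b := fun {a b} h => by
    rw [← hper a, ← hper b, h]
  refine ⟨fun g => y (e g), ⟨_, ⟨_, ⟨L', hL', rfl⟩, rfl⟩, fun g s hs => hcongr (helev g s hs)⟩,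
    funext fun x => ?_, fun i hi => ?_⟩
  · obtain ⟨g, h⟩ := x
    rw [dd₁_apply, hcongr (headd g h), hyadd]
    have hg : σ g (y (e h)) = ρ (e g) (y (e h)) := by
      show σ g _ = σ (F' ^ e g) _
      conv_lhs => rw [show g = F' ^ e g * ((F' ^ e g)⁻¹ * g) by group]
      rw [map_mul, Module.End.mul_apply, hσ _ (heH g)]
    have hval : c (g, h) = C (e g) (e h) := by
      have := hinv (F' ^ e g) (F' ^ e h) _ (heH g) _ (heH h)
      rwa [mul_inv_cancel_left, mul_inv_cancel_left] at this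
    rw [hg, hval]
    abel
  · show y (e i) = _
    rw [hcongr (heI i hi), hy0]
    simp [C]

variable {ℓ : ℕ} (hℓ : ℓ.Prime) (hA : A.LiesOverPrime ℓ) {L : IntermediateField ℚ Qb}
  [FiniteDimensional ℚ L] (hI : A.inertiaSubgroupIn ℚ ≤ L.fixingSubgroup) (hL : ContainsMuP p L)

include hℓ hA hI hL in
/-- Unramified classes are orthogonal to unramified classes. -/
theorem pair1_decUnr_eq_zero (hσ : TrivialOn (decSub L A) σ)
    (inv : H2c (decLevels A) (cyc (decChi p A)) →ₗ[ZMod p] ZMod p)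
    {x : H1c (decLevels A) σ} (hx : x ∈ decUnr σ)
    {y : H1c (decLevels A) (dualTw (decChi p A) σ)}
    (hy : y ∈ decUnr (dualTw (decChi p A) σ)) :
    pair1 (decChi p A) σ (decLevels A) inv x y = 0 := by
  have htr := trivialOn_dualTw (decChi p A) σ (fun n hn => hL _ hn) hσ
  induction x using Submodule.Quotient.induction_on with
  | _ a =>
  induction y using Submodule.Quotient.induction_on with
  | _ b =>
  have hxi := (cl1_mem_decUnr_iff σ hI hσ a).mp hx
  have hyi := (cl1_mem_decUnr_iff (dualTw (decChi p A) σ) hI htr b).mp hy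
  have ha0 : a.1 1 = 0 := by simpa using a.2.2 1 1
  have hb0 : b.1 1 = 0 := by simpa using b.2.2 1 1
  obtain ⟨_, ⟨_, ⟨K, hK, rfl⟩, rfl⟩, hKl⟩ := a.2.1
  obtain ⟨_, ⟨_, ⟨K', hK', rfl⟩, rfl⟩, hKl'⟩ := b.2.1
  let H : Subgroup (A.decompositionSubgroup ℚ) :=
    { carrier := {u | u ∈ decSub L A ∧ a.1 u = 0 ∧ b.1 u = 0}
      one_mem' := ⟨one_mem _, ha0, hb0⟩
      mul_mem' := fun {u v} hu hv => ⟨mul_mem hu.1 hv.1,
        by rw [a.2.2, hu.2.1, hv.2.1, map_zero, zero_add],
        by rw [b.2.2, hu.2.2, hv.2.2, map_zero, zero_add]⟩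
      inv_mem' := fun {u} hu => ⟨inv_mem hu.1, by
          have h := a.2.2 u⁻¹ u
          rw [inv_mul_cancel, ha0, hu.2.1, map_zero, zero_add] at h
          exact h.symm, by
          have h := b.2.2 u⁻¹ u
          rw [inv_mul_cancel, hb0, hu.2.2, map_zero, zero_add] at h
          exact h.symm⟩ }
  have : FiniteDimensional ℚ K := hK
  have : FiniteDimensional ℚ K' := hK'
  have : FiniteDimensional ℚ (K ⊔ K' : IntermediateField ℚ Qb) :=
    IntermediateField.finiteDimensional_sup _ _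
  have : FiniteDimensional ℚ (L ⊔ (K ⊔ K') : IntermediateField ℚ Qb) :=
    IntermediateField.finiteDimensional_sup _ _
  have hIH : decInertia A ≤ H := fun i hi => ⟨hI hi, hxi i hi, hyi i hi⟩
  have hNH : decSub (L ⊔ (K ⊔ K')) A ≤ H := fun u hu => by
    have h1 : (u : GQ) ∈ L.fixingSubgroup :=
      IntermediateField.fixingSubgroup_antitone le_sup_left hu
    have h2 : (u : GQ) ∈ K.fixingSubgroup :=
      IntermediateField.fixingSubgroup_antitone (le_sup_left.trans le_sup_right) hu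
    have h3 : (u : GQ) ∈ K'.fixingSubgroup :=
      IntermediateField.fixingSubgroup_antitone (le_sup_right.trans le_sup_right) hu
    refine ⟨h1, ?_, ?_⟩
    · have := hKl 1 u h2
      rwa [one_mul, ha0] at this
    · have := hKl' 1 u h3
      rwa [one_mul, hb0] at this
  have hcyc : TrivialOn H (cyc (decChi p A)) := fun u hu m => by
    show (decChi p A u : ZMod p) * m = m
    rw [show decChi p A u = 1 from hL _ hu.1, Units.val_one, one_mul]
  let c := cupZ σ (decLevels A) (isPairing_eval (decChi p A) σ) a b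
  obtain ⟨z, hz, hdz, -⟩ := exists_primitive (cyc (decChi p A)) hℓ hA (L ⊔ (K ⊔ K')) H hIH hNH
    hcyc c.1 c.2.2 fun g g' u hu v hv => by
      simp only [c, cupZ_apply]
      rw [a.2.2 g u, hu.2.1, map_zero, zero_add, b.2.2 g' v, hv.2.2, map_zero, zero_add, map_mul,
        Module.End.mul_apply, htr u hu.1]
  show inv (cl2 (decLevels A) (cyc (decChi p A)) c) = 0
  rw [(cl2_eq_zero_iff _ _ _).mpr ⟨z, hz, hdz⟩, map_zero]

end

section Global

local notation "Qb" => AlgebraicClosure ℚ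
local notation "GQ" => AlgebraicClosure ℚ ≃ₐ[ℚ] AlgebraicClosure ℚ

variable {p : ℕ} [Fact p.Prime] {S : Finset Nat.Primes} {M : Type} [AddCommGroup M]
  [Module (ZMod p) M] (ρ : Representation (ZMod p) GQ M)

/-- A cocycle of `G_{ℚ,S}` is at a prime outside `S` the coboundary of a cochain constant on
inertia. -/
theorem exists_primitive_global {L : IntermediateField ℚ Qb} (hL : L.IsUnramifiedOutside S)
    (hρ : TrivialOn L.fixingSubgroup ρ) (c : Z2 (sLevels S) ρ) {q : Nat.Primes} (hq : q ∉ S)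
    {A : ValuationSubring Qb} (hA : A.LiesOverPrime (q : ℕ)) :
    ∃ z, IsLev₁ (decLevels A) z ∧
      dd₁ (ρ.comp (A.decompositionSubgroup ℚ).subtype) z =
        (fun x => c.1 ((x.1 : GQ), (x.2 : GQ))) ∧
      ∀ i ∈ decInertia A, z i = c.1 (1, 1) := by
  obtain ⟨_, ⟨F, hF, rfl⟩, hc⟩ := c.2.1
  have hN := hF.sup hL
  have := hN.1
  exact exists_primitive (ρ.comp (A.decompositionSubgroup ℚ).subtype) q.2 hA (F ⊔ L)
    (decSub (F ⊔ L) A) (fun i hi => hN.2 q hq A hA hi) le_rfl
    (fun u hu m => hρ _ (IntermediateField.fixingSubgroup_antitone le_sup_right hu) m)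
    (fun x => c.1 ((x.1 : GQ), (x.2 : GQ))) (fun g h j => c.2.2 _ _ _)
    fun g g' u hu v hv => hc (g : GQ) (g' : GQ) (u : GQ)
      (IntermediateField.fixingSubgroup_antitone le_sup_left hu) (v : GQ)
      (IntermediateField.fixingSubgroup_antitone le_sup_left hv)

/-- Classes of degree two of `G_{ℚ,S}` vanish outside `S`. -/
theorem decRes2_eq_zero {L : IntermediateField ℚ Qb} (hL : L.IsUnramifiedOutside S)
    (hρ : TrivialOn L.fixingSubgroup ρ) {q : Nat.Primes} (hq : q ∉ S)
    {A : ValuationSubring Qb} (hA : A.LiesOverPrime (q : ℕ)) (x : H2c (sLevels S) ρ) :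
    decRes2 S ρ A x = 0 := by
  induction x using Submodule.Quotient.induction_on with
  | _ c =>
    obtain ⟨z, hz, hdz, -⟩ := exists_primitive_global ρ hL hρ c hq hA
    exact (cl2_eq_zero_iff _ _ _).mpr ⟨z, hz, hdz⟩

end Global

end FermatAgent.Duality
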