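import Fermat.Agent.Duality.Small.Induced
import Fermat.Agent.Duality.Small.Cyclo
import Fermat.Agent.Duality.Small.Hyperplane
import Fermat.Agent.Duality.Bridge.Sha
import Fermat.Agent.TW.Duality

/-!
# The pairing of `Ш¹_S(M')` and `Ш²_S(M)`

Over the field enlarged by roots of unity the Euler characteristic of `G_{L,S}` is at least the
expected one, so the two groups have the same finite dimension.
-/

set_option autoImplicit false

open scoped Pointwise

namespace FermatAgent.Duality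

open Module CategoryTheory groupCohomology ExtCitation

noncomputable section

local notation "Qb" => AlgebraicClosure ℚ
local notation "GQ" => AlgebraicClosure ℚ ≃ₐ[ℚ] AlgebraicClosure ℚ

attribute [local instance] FermatAgent.RT.isGalois_algClosureRat Global.numberField_of_finite

variable {p : ℕ} [Fact p.Prime]

/-- The lower bound for the Euler characteristic of `G_{K,S}` on `𝔽_p`. -/
theorem two_mul_finrank_globalH1_le {K : IntermediateField ℚ Qb} [FiniteDimensional ℚ K]
    {S : Finset Nat.Primes} (hp2 : p ≠ 2) (hK : ContainsMuP p K) (hS : K.IsUnramifiedOutside S)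
    (hpS : pPrime p ∈ S) {e : Kˣ}
    (he : ∀ P : IsDedekindDomain.HeightOneSpectrum (NumberField.RingOfIntegers K),
      Global.ord P e = 0)
    (hloc : ∀ q ∈ S, ∀ A : ValuationSubring Qb, A.LiesOverPrime (q : ℕ) →
      Global.locF1 A (Global.kappa hK e) ≠ 0) :
    Module.Finite (ZMod p) (globalH1 p K S) ∧ Module.Finite (ZMod p) (globalH2 p K S) ∧
      2 * finrank (ZMod p) (globalH1 p K S) ≤
        2 + 2 * finrank (ZMod p) (globalH2 p K S) + finrank ℚ K := by
  obtain ⟨P, hfin2, h2⟩ := Global.exists_system_globalH2_ge hp2 hK hS hpS he hloc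
  obtain ⟨hfin1, h1⟩ := Global.finrank_globalH1_le hp2 hK hS hpS P
  obtain ⟨ζ, hζ⟩ := Global.exists_primitiveRoot hK
  have h3 := (Global.finrank_eq_two_mul (p := p) (Or.inl hp2) hζ).1
  exact ⟨hfin1, hfin2, by omega⟩

set_option maxHeartbeats 1600000 in
/-- **Duality of the locally trivial classes.** -/
theorem exists_sha_pairing (hp2 : p ≠ 2) (S : Finset Nat.Primes) (hpS : pPrime p ∈ S)
    (M : Rep (ZMod p) GQ) [FiniteDimensional (ZMod p) M]
    (hsm : ∀ m : M, ∃ F : IntermediateField ℚ Qb, FiniteDimensional ℚ F ∧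
      ∀ s ∈ F.fixingSubgroup, M.ρ s m = m)
    (hMur : ∀ q : Nat.Primes, q ∉ S → ∀ A : ValuationSubring Qb,
      A.LiesOverPrime (q : ℕ) → ∀ g ∈ A.inertiaSubgroupIn ℚ, M.ρ g = 1) :
    ∃ B : sha₁ S (M.dualTwist (cycloChar p)) →ₗ[ZMod p] sha₂ S M →ₗ[ZMod p] ZMod p,
      (∀ y, (∀ x, B y x = 0) → y = 0) ∧ (∀ x, (∀ y, B y x = 0) → x = 0) := by
  classical
  choose A hA using fun q : Nat.Primes => RT.exists_liesOverPrime q.2
  obtain ⟨L₀, hL₀, hn₀, hμ₀, htr₀⟩ := exists_splittingField p M.ρ hsm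
  let H : Subgroup GQ := M.ρ.ker ⊓ (cycloChar p).ker
  obtain ⟨F, -, hFfd, hF⟩ := exists_field_of_fixingSubgroup_le (F := L₀) (H := H)
    fun g hg => ⟨LinearMap.ext fun m => htr₀ g hg m, hμ₀ g hg⟩
  have hFn : F.fixingSubgroup.Normal := by rw [hF]; infer_instance
  have hFμ : ContainsMuP p F := fun g hg => by rw [hF] at hg; exact hg.2
  have hFS : F.IsUnramifiedOutside S := ⟨hFfd, fun q hq B hB i hi => by
    rw [hF]
    exact ⟨hMur q hq B hB i hi, TW.cycloChar_eq_one_of_mem_inertia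
      (fun h => hq (by rw [show q = pPrime p from Subtype.ext h]; exact hpS)) hB hi⟩⟩
  obtain ⟨L, hLfd, hLμ, e, hLn, hLS, hLF, he, hloc⟩ := exists_enlarged hp2 hFμ hFS hpS
  obtain ⟨S₁, hSS₁, hS₁⟩ := exists_bigFor p L hLS
  obtain ⟨S₂, -, hS₂⟩ := Euler.exists_bigEnough (p := p) L hLS
  let C : RatCtx p :=
    { S := S₁ ∪ S₂, L := L, A := A, liesOver := hA, hp := hp2, hL := hLμ
      big := hS₁ _ Finset.subset_union_left, enough := hS₂ _ Finset.subset_union_right }
  have hρ : TrivialOn C.L.fixingSubgroup M.ρ := fun g hg m => by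
    have hg' := hLF hg
    rw [hF] at hg'
    exact LinearMap.congr_fun hg'.1 m
  let _ : Fintype (GQ ⧸ C.L.fixingSubgroup) :=
    @Subgroup.fintypeQuotientOfFiniteIndex _ _ _ C.finiteIndex_fix
  obtain ⟨hf1, hf2, hbound⟩ := two_mul_finrank_globalH1_le hp2 hLμ hLS hpS he hloc
  have hdeg : finrank ℚ L = Fintype.card (GQ ⧸ L.fixingSubgroup) := by
    rw [IntermediateField.finrank_eq_fixingSubgroup_index, Subgroup.index,
      Nat.card_eq_fintype_card]
  have hind := C.eulerDefect_ind_nonneg M.ρ S hLS hρ (by rw [← hdeg]; exact hbound)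
  obtain ⟨hfin, heq⟩ := C.finrank_shaDec2_eq S hLS hpS
    (hSS₁.trans Finset.subset_union_left) M.ρ hρ hind
  have h2 : (2 : ZMod p) ≠ 0 := two_ne_zero_of_ne_two hp2
  let E₂ := sha₂Equiv S A hA M h2.isUnit
  let E₁ := sha₁Equiv S A hA (M.dualTwist (cycloChar p)) h2
  have : FiniteDimensional (ZMod p) (sha₂ S M) := Module.Finite.equiv E₂
  have : FiniteDimensional (ZMod p) (H1c (sLevels S) (M.dualTwist (cycloChar p)).ρ) :=
    finite_H1c_sLevels (C.dualRep M.ρ)
      (fun m => ⟨C.L, inferInstance, fun s hs => C.trivialOn_dual M.ρ hρ s hs m⟩) S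
  have : FiniteDimensional (ZMod p) (sha₁ S (M.dualTwist (cycloChar p))) :=
    Module.Finite.equiv E₁
  have hdim : finrank (ZMod p) (sha₁ S (M.dualTwist (cycloChar p))) =
      finrank (ZMod p) (Dual (ZMod p) (sha₂ S M)) := by
    rw [Subspace.dual_finrank_eq, ← E₁.finrank_eq, ← E₂.finrank_eq]
    exact heq.symm
  let B := LinearEquiv.ofFinrankEq _ _ hdim
  refine ⟨B.toLinearMap, fun y hy => B.map_eq_zero_iff.mp (LinearMap.ext hy),
    fun x hx => (Module.forall_dual_apply_eq_zero_iff (ZMod p) x).mp fun f => ?_⟩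
  simpa using hx (B.symm f)

end

end FermatAgent.Duality
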